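import Fermat.Agent.S13.DP.Basic
import Fermat.Agent.S13.Counting
import Fermat.Prelude.Def_FLTPrelim_FreyPackage
import Fermat.Prelude.Def_FLTPrelim_GaloisRep

/-!
# T13 task 113 (DP5): torsion conclusions in the Skeleton shapes, and the Frey corollaries

Everything is stated against the KEY statement of the division polynomial theory
(`Key W p : p • (x, y) = 0 ↔ preΨ_p(x) = 0`), which is the output of DP2–DP4.
-/

set_option autoImplicit false
set_option linter.unusedSectionVars false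

open WeierstrassCurve WeierstrassCurve.Affine WeierstrassCurve.Affine.Point
open Polynomial

namespace Fermat.Agent.S13

namespace DPmain

variable {K : Type*} [Field K] [DecidableEq K]

/-- The KEY statement (output of DP2–DP4): a nonsingular affine point is killed by `p` iff its
`x`-coordinate is a root of the `p`-th division polynomial `preΨ_p`. -/
def Key (W : WeierstrassCurve K) (p : ℕ) : Prop :=
  ∀ (x y : K) (h : W.toAffine.Nonsingular x y),
    p • (Point.some x y h) = 0 ↔ (W.preΨ (p : ℤ)).eval x = 0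

variable (W : WeierstrassCurve K) {p : ℕ}

theorem Key.hDP (hkey : Key W p) (x y : K) (h : W.toAffine.Nonsingular x y) :
    p • (Point.some x y h) = 0 ↔ (W.preΨ' p).eval x = 0 := by
  rw [← W.preΨ_ofNat]
  exact hkey x y h

theorem preΨ_eval_eq_zero_of_key (hkey : Key W p) {Q : W.toAffine.Point} (hQ : Q ≠ 0)
    (hpQ : p • Q = 0) : (W.preΨ p).eval (DP.xc Q) = 0 := by
  cases Q with
  | zero => exact absurd rfl hQ
  | some x y h => exact (hkey x y h).mp hpQ

section

variable [CharZero K] (hp : p.Prime) (hp2 : p ≠ 2)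
include hp hp2

theorem odd_of_prime : Odd p := hp.odd_of_ne_two hp2

theorem cast_ne_zero_of_prime : (p : K) ≠ 0 := Nat.cast_ne_zero.mpr hp.ne_zero

theorem two_lt_of_prime : 2 < p := lt_of_le_of_ne hp.two_le (Ne.symm hp2)

theorem finite_torsion_of_key (hkey : Key W p) : Finite {Q : W.toAffine.Point // p • Q = 0} :=
  Counting.finite_tors W (odd_of_prime hp hp2) (cast_ne_zero_of_prime hp hp2) (Key.hDP W hkey)

theorem card_torsion_le_of_key (hkey : Key W p) :
    Nat.card {Q : W.toAffine.Point // p • Q = 0} ≤ p ^ 2 :=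
  Counting.card_tors_le W (odd_of_prime hp hp2) (cast_ne_zero_of_prime hp hp2) (Key.hDP W hkey)

variable [IsAlgClosed K] (hΔ : W.Δ ≠ 0)
include hΔ

theorem exists_ne_zero_nsmul_eq_zero_of_key (hkey : Key W p) :
    ∃ Q : W.toAffine.Point, Q ≠ 0 ∧ p • Q = 0 :=
  Counting.exists_ne_zero_torsion W (odd_of_prime hp hp2) (cast_ne_zero_of_prime hp hp2)
    (Key.hDP W hkey) hΔ (two_lt_of_prime hp hp2)

theorem preΨ_eq_prod_of_key (hkey : Key W p)
    (hcard : Nat.card {Q : W.toAffine.Point // p • Q = 0} = p ^ 2) :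
    ∃ S : Finset K, (∀ x, x ∈ S ↔ ∃ Q : W.toAffine.Point, Q ≠ 0 ∧ p • Q = 0 ∧ DP.xc Q = x) ∧
      W.preΨ p = C (p : K) * ∏ x ∈ S, (X - C x) := by
  have hodd := odd_of_prime hp hp2
  have hpK : (p : K) ≠ 0 := cast_ne_zero_of_prime hp hp2
  refine ⟨Counting.xSet W p, fun x => ?_, ?_⟩
  · rw [Counting.mem_xSet_iff_exists W hodd hpK (Key.hDP W hkey) hΔ]
    constructor
    · rintro ⟨y, h, hP⟩
      exact ⟨Point.some x y h, Point.some_ne_zero h, hP, rfl⟩
    · rintro ⟨Q, hQ, hpQ, rfl⟩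
      cases Q with
      | zero => exact absurd rfl hQ
      | some x y h => exact ⟨y, h, hpQ⟩
  · rw [W.preΨ_ofNat]
    exact Counting.preΨ'_eq_prod W hodd hpK (Key.hDP W hkey) hcard

end

end DPmain

/-! ## The Frey curve -/

section Frey

open FreyPackage

/-- The discriminant of the Frey curve. -/
theorem freyCurve_Δ (P : FreyPackage) :
    P.freyCurve.Δ = ((P.a : ℚ) ^ P.p * (P.b : ℚ) ^ P.p * ((P.a : ℚ) ^ P.p + (P.b : ℚ) ^ P.p)) ^ 2
      / 256 := by
  simp only [WeierstrassCurve.Δ, WeierstrassCurve.b₂, WeierstrassCurve.b₄, WeierstrassCurve.b₆,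
    WeierstrassCurve.b₈, FreyPackage.freyCurve]
  ring

theorem freyCurve_Δ_ne_zero (P : FreyPackage) : P.freyCurve.Δ ≠ 0 := by
  rw [freyCurve_Δ]
  have ha : (P.a : ℚ) ≠ 0 := Int.cast_ne_zero.mpr P.ha0
  have hb : (P.b : ℚ) ≠ 0 := Int.cast_ne_zero.mpr P.hb0
  have hc : (P.a : ℚ) ^ P.p + (P.b : ℚ) ^ P.p ≠ 0 := by
    have h := P.hFLT
    have h' : (P.a : ℚ) ^ P.p + (P.b : ℚ) ^ P.p = (P.c : ℚ) ^ P.p := by exact_mod_cast h
    rw [h']
    exact pow_ne_zero _ (Int.cast_ne_zero.mpr P.hc0)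
  have : (P.a : ℚ) ^ P.p * (P.b : ℚ) ^ P.p * ((P.a : ℚ) ^ P.p + (P.b : ℚ) ^ P.p) ≠ 0 :=
    mul_ne_zero (mul_ne_zero (pow_ne_zero _ ha) (pow_ne_zero _ hb)) hc
  exact div_ne_zero (pow_ne_zero _ this) (by norm_num)

theorem freyCurve_baseChange_Δ_ne_zero (P : FreyPackage) :
    (P.freyCurve⁄(AlgebraicClosure ℚ)).Δ ≠ 0 := by
  show (P.freyCurve.map (algebraMap ℚ (AlgebraicClosure ℚ))).Δ ≠ 0
  rw [WeierstrassCurve.map_Δ]
  exact (_root_.map_ne_zero _).mpr (freyCurve_Δ_ne_zero P)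

variable (P : FreyPackage)
  (hkey : DPmain.Key (P.freyCurve⁄(AlgebraicClosure ℚ)) P.p)
include hkey

theorem frey_nontrivial_of_key :
    Nontrivial (Submodule.torsionBy ℤ (P.freyCurve⁄(AlgebraicClosure ℚ)).Point P.p) :=
  Counting.nontrivial_torsionBy _ P.hp_odd (Nat.cast_ne_zero.mpr P.hp0)
    (DPmain.Key.hDP _ hkey) (freyCurve_baseChange_Δ_ne_zero P) (by have := P.hp5; omega)

theorem frey_finite_of_key :
    Finite (Submodule.torsionBy ℤ (P.freyCurve⁄(AlgebraicClosure ℚ)).Point P.p) :=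
  Counting.finite_torsionBy _ P.hp_odd (Nat.cast_ne_zero.mpr P.hp0) (DPmain.Key.hDP _ hkey)

theorem frey_card_le_of_key :
    Nat.card (Submodule.torsionBy ℤ (P.freyCurve⁄(AlgebraicClosure ℚ)).Point P.p) ≤ P.p ^ 2 :=
  Counting.card_torsionBy_le _ P.hp_odd (Nat.cast_ne_zero.mpr P.hp0) (DPmain.Key.hDP _ hkey)

end Frey

end Fermat.Agent.S13
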