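import Fermat.Agent.S13.DP.Seq

/-!
# S13 / DP2: the Ward relations for the division-polynomial values, by induction

For a point `Q ≠ 0` all of whose multiples `j • Q`, `0 < j ≤ L`, are nonzero, the values
`s j = ψ_j(Q)` satisfy `s j ≠ 0` (`0 < j ≤ L`) and
`s (m+n) s (m-n) = (x(nQ) - x(mQ)) s m ^ 2 s n ^ 2` for `0 < n < m`, `m + n ≤ L + 1`.
-/

set_option autoImplicit false
set_option linter.unusedSectionVars false
set_option linter.unusedVariables false

namespace Fermat.Agent.S13.DP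

open WeierstrassCurve WeierstrassCurve.Affine Polynomial

variable {K : Type*} [Field K]

/-! ### The two field computations -/

theorem ward_step {A B C D E Fd J G1 G2 H p q r u w z : K}
    (hE : E ≠ 0) (hFd : Fd ≠ 0) (hJ : J ≠ 0) (hG1 : G1 ≠ 0) (hD : D ≠ 0)
    (h1 : E * Fd = p * A ^ 2 * B ^ 2) (h2 : q * E ^ 2 = H * J) (h3 : r * Fd ^ 2 = G1 * G2)
    (h4 : u * B ^ 2 = C * D) (h5 : J * G1 = w * A ^ 2 * D ^ 2)
    (h6 : p ^ 2 * q * r = u ^ 2 * z * w) :
    H * G2 = z * A ^ 2 * C ^ 2 := by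
  have hEF2 : (E * Fd) ^ 2 = p ^ 2 * A ^ 4 * B ^ 4 := by rw [h1]; ring
  have key : E ^ 2 * Fd ^ 2 * J * G1 * D ^ 2 * (H * G2) =
      E ^ 2 * Fd ^ 2 * J * G1 * D ^ 2 * (z * A ^ 2 * C ^ 2) := by
    calc E ^ 2 * Fd ^ 2 * J * G1 * D ^ 2 * (H * G2)
        = E ^ 2 * Fd ^ 2 * D ^ 2 * (H * J) * (G1 * G2) := by ring
      _ = E ^ 2 * Fd ^ 2 * D ^ 2 * (q * E ^ 2) * (r * Fd ^ 2) := by rw [h2, h3]
      _ = E ^ 2 * Fd ^ 2 * D ^ 2 * ((E * Fd) ^ 2 * (q * r)) := by ring
      _ = E ^ 2 * Fd ^ 2 * D ^ 2 * (p ^ 2 * A ^ 4 * B ^ 4 * (q * r)) := by rw [hEF2]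
      _ = E ^ 2 * Fd ^ 2 * D ^ 2 * A ^ 4 * B ^ 4 * (p ^ 2 * q * r) := by ring
      _ = E ^ 2 * Fd ^ 2 * D ^ 2 * A ^ 4 * B ^ 4 * (u ^ 2 * z * w) := by rw [h6]
      _ = z * A ^ 2 * E ^ 2 * Fd ^ 2 * (u * B ^ 2) ^ 2 * (w * A ^ 2 * D ^ 2) := by ring
      _ = z * A ^ 2 * E ^ 2 * Fd ^ 2 * (C * D) ^ 2 * (J * G1) := by rw [h4, h5]
      _ = E ^ 2 * Fd ^ 2 * J * G1 * D ^ 2 * (z * A ^ 2 * C ^ 2) := by ring
  have hne : E ^ 2 * Fd ^ 2 * J * G1 * D ^ 2 ≠ 0 := by
    have := pow_ne_zero 2 hE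
    have := pow_ne_zero 2 hFd
    have := pow_ne_zero 2 hD
    simp [hE, hFd, hJ, hG1, hD]
  exact mul_left_cancel₀ hne key

theorem ward_step_dup {E J S3 S4 H q r u z η : K}
    (hE : E ≠ 0) (hJ : J ≠ 0) (hS3 : S3 ≠ 0)
    (h2 : q * E ^ 2 = H * J) (h3 : r * S3 ^ 2 = J * S4) (h4 : u * J ^ 2 = E * S3)
    (h6 : q * r * u ^ 2 = η ^ 2 * z) :
    H * S4 = z * J ^ 2 * η ^ 2 := by
  have key : E ^ 2 * S3 ^ 2 * J ^ 2 * (H * S4) = E ^ 2 * S3 ^ 2 * J ^ 2 * (z * J ^ 2 * η ^ 2) := by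
    calc E ^ 2 * S3 ^ 2 * J ^ 2 * (H * S4) = (H * J) * (J * S4) * (E * S3) ^ 2 := by ring
      _ = (q * E ^ 2) * (r * S3 ^ 2) * (u * J ^ 2) ^ 2 := by rw [h2, h3, h4]
      _ = E ^ 2 * S3 ^ 2 * J ^ 4 * (q * r * u ^ 2) := by ring
      _ = E ^ 2 * S3 ^ 2 * J ^ 4 * (η ^ 2 * z) := by rw [h6]
      _ = E ^ 2 * S3 ^ 2 * J ^ 2 * (z * J ^ 2 * η ^ 2) := by ring
  have hne : E ^ 2 * S3 ^ 2 * J ^ 2 ≠ 0 := by simp [hE, hJ, hS3]
  exact mul_left_cancel₀ hne key

/-! ### Evaluations of the small division polynomials -/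

section Evals
variable (W : WeierstrassCurve K)

theorem eval_Ψ₂Sq (x : K) : (W.Ψ₂Sq).eval x = psi2Sq W x := by
  simp [Ψ₂Sq, psi2Sq]

theorem eval_Ψ₃ (x : K) : (W.Ψ₃).eval x = psi3 W x := by
  simp [Ψ₃, psi3]

/-- the tripling identity `preΨ₄ = Ψ₃ (6x² + b₂x + b₄) - Ψ₂Sq²`. -/
theorem eval_preΨ₄ (x : K) : (W.preΨ₄).eval x =
    psi3 W x * (6 * x ^ 2 + W.b₂ * x + W.b₄) - psi2Sq W x ^ 2 := by
  simp only [preΨ₄, psi3, psi2Sq, eval_add, eval_mul, eval_pow, eval_X, eval_C, eval_ofNat]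
  linear_combination (x ^ 2) * W.b_relation

end Evals

/-! ### The geometric set-up -/

section Geom

variable [DecidableEq K] {W : Affine K}

/-- `x`-coordinate of `j • Q`. -/
def Xm (Q : W.Point) (j : ℤ) : K := xc (j • Q)

theorem Xm_one (Q : W.Point) : Xm Q 1 = xc Q := by simp [Xm]

/-- the division-polynomial values at `Q`. -/
noncomputable def sQ (Q : W.Point) (j : ℤ) : K := sq W (xc Q) (eta Q) j

theorem eta_sq' {Q : W.Point} (hQ : Q ≠ 0) : eta Q ^ 2 = (W.Ψ₂Sq).eval (xc Q) := by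
  rw [eval_Ψ₂Sq]; exact eta_sq Q hQ

theorem sQ_zero (Q : W.Point) : sQ Q 0 = 0 := sq_zero ..
theorem sQ_one (Q : W.Point) : sQ Q 1 = 1 := sq_one ..
theorem sQ_two (Q : W.Point) : sQ Q 2 = eta Q := sq_two ..
theorem sQ_three (Q : W.Point) : sQ Q 3 = psi3 W (xc Q) := by
  rw [sQ, sq_three, eval_Ψ₃]
theorem sQ_four (Q : W.Point) : sQ Q 4 = (W.preΨ₄).eval (xc Q) * eta Q := sq_four ..

/-- pair law for multiples of `Q`. -/
theorem symF_pair_mul {Q : W.Point} {m n : ℤ} (hm : m • Q ≠ 0) (hn : n • Q ≠ 0)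
    (hp : (m + n) • Q ≠ 0) (hd : (m - n) • Q ≠ 0) (t : K) :
    symF W t (Xm Q m) (Xm Q n) =
      (Xm Q m - Xm Q n) ^ 2 * (t - Xm Q (m + n)) * (t - Xm Q (m - n)) := by
  have hp' : m • Q + n • Q ≠ 0 := by rwa [← add_smul]
  have hd' : m • Q - n • Q ≠ 0 := by rwa [← sub_smul]
  have := symF_pair hm hn hp' hd' t
  rwa [← add_smul, ← sub_smul] at this

/-- The hypotheses available at stage `L` of the induction. -/
structure Stage (Q : W.Point) (L : ℤ) : Prop where
  /-- multiples are nonzero up to `L + 1` -/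
  mul : ∀ j : ℤ, 0 < j → j ≤ L + 1 → j • Q ≠ 0
  /-- values are nonzero up to `L + 1` -/
  ne : ∀ j : ℤ, 0 < j → j ≤ L + 1 → sQ Q j ≠ 0
  /-- Ward relations for sums up to `L + 1` -/
  rel : ∀ m n : ℤ, 0 < n → n < m → m + n ≤ L + 1 →
    sQ Q (m + n) * sQ Q (m - n) = (Xm Q n - Xm Q m) * sQ Q m ^ 2 * sQ Q n ^ 2

namespace Stage

variable {Q : W.Point} {L : ℤ} (S : Stage Q L)
include S

/-- three-term relation. -/
theorem three (j : ℤ) (h1 : 1 < j) (hj : j ≤ L) :
    (xc Q - Xm Q j) * sQ Q j ^ 2 = sQ Q (j + 1) * sQ Q (j - 1) := by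
  have := S.rel j 1 one_pos h1 (by omega)
  rw [Xm_one, sQ_one] at this
  rw [this]; ring

/-- the new Ward relations at sum `L + 2`, with `H` in place of `sQ Q (L + 2)`. -/
theorem gprime (hQ : Q ≠ 0) (H : K)
    (h2 : (xc Q - Xm Q (L + 1)) * sQ Q (L + 1) ^ 2 = H * sQ Q L)
    (m n : ℤ) (hn : 2 ≤ n) (hnm : n < m) (hsum : m + n = L + 2) :
    H * sQ Q (m - n) = (Xm Q n - Xm Q m) * sQ Q m ^ 2 * sQ Q n ^ 2 := by
  have hQ1 : (1 : ℤ) • Q ≠ 0 := by simpa using hQ
  rcases eq_or_lt_of_le hn with hn2 | hn3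
  · -- `n = 2`, `m = L`
    subst hn2
    have hmL : m = L := by omega
    subst hmL
    have hm3 : 3 ≤ m := by omega
    have h3 := S.three (m - 1) (by omega) (by omega)
    have h4 := S.three m (by omega) le_rfl
    have e1 : m - 1 + 1 = m := by ring
    have e2 : m - 1 - 1 = m - 2 := by ring
    rw [e1, e2] at h3
    -- duplication pair law
    have hpair := symF_pair_mul (Q := Q) (m := m) (n := 1) (S.mul m (by omega) (by omega)) hQ1
      (S.mul (m + 1) (by omega) (by omega)) (S.mul (m - 1) (by omega) (by omega)) (xc Q)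
    rw [Xm_one, symF_diag] at hpair
    have hdup : Xm Q 2 * psi2Sq W (xc Q) = phi2 W (xc Q) := by
      have h2Q : Q + Q ≠ 0 := by
        have := S.mul 2 (by omega) (by omega)
        rwa [two_smul] at this
      have := xc_double hQ h2Q
      rwa [← two_smul ℤ Q] at this
    have hη := eta_sq Q hQ
    have h6 : (xc Q - Xm Q (m + 1)) * (xc Q - Xm Q (m - 1)) * (xc Q - Xm Q m) ^ 2
        = eta Q ^ 2 * (Xm Q 2 - Xm Q m) := by
      rw [hη]
      linear_combination (-1 : K) * hpair - hdup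
    have := ward_step_dup (S.ne (m + 1) (by omega) (by omega)) (S.ne m (by omega) (by omega))
      (S.ne (m - 1) (by omega) (by omega)) h2 h3 h4 h6
    rw [sQ_two]
    linear_combination this
  · -- `n ≥ 3`
    have hn' : 2 ≤ n - 1 := by omega
    have hmn : m + (n - 1) = L + 1 := by omega
    have h1 := S.rel m (n - 1) (by omega) (by omega) (by omega)
    have h3 := S.three (m - (n - 1)) (by omega) (by omega)
    have h4 := S.three (n - 1) (by omega) (by omega)
    have h5 := S.rel m (n - 1 - 1) (by omega) (by omega) (by omega)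
    have e1 : m + (n - 1) = L + 1 := hmn
    have e2 : m - (n - 1) + 1 = m - n + 2 := by ring
    have e3 : m - (n - 1) - 1 = m - n := by ring
    have e4 : n - 1 + 1 = n := by ring
    have e5 : m + (n - 1 - 1) = L := by omega
    have e6 : m - (n - 1 - 1) = m - n + 2 := by ring
    rw [e1] at h1
    rw [e2, e3] at h3
    rw [e4] at h4
    rw [e5, e6] at h5
    -- the two pair laws
    have hpA := symF_pair_mul (Q := Q) (m := m) (n := n - 1) (S.mul m (by omega) (by omega))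
      (S.mul (n - 1) (by omega) (by omega)) (by rw [e1]; exact S.mul (L + 1) (by omega) le_rfl)
      (S.mul (m - (n - 1)) (by omega) (by omega)) (xc Q)
    have hpB := symF_pair_mul (Q := Q) (m := n - 1) (n := 1) (S.mul (n - 1) (by omega) (by omega))
      hQ1 (by rw [e4]; exact S.mul n (by omega) (by omega))
      (S.mul (n - 1 - 1) (by omega) (by omega)) (Xm Q m)
    rw [e1] at hpA
    rw [e4, Xm_one] at hpB
    have hsym : symF W (xc Q) (Xm Q m) (Xm Q (n - 1)) = symF W (Xm Q m) (Xm Q (n - 1)) (xc Q) :=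
      symF_rot W _ _ _
    have h6 : (Xm Q (n - 1) - Xm Q m) ^ 2 * (xc Q - Xm Q (L + 1)) * (xc Q - Xm Q (m - (n - 1)))
        = (xc Q - Xm Q (n - 1)) ^ 2 * (Xm Q n - Xm Q m) * (Xm Q (n - 1 - 1) - Xm Q m) := by
      linear_combination (-1 : K) * hpA + hpB + hsym
    exact ward_step (S.ne (L + 1) (by omega) le_rfl) (S.ne (m - (n - 1)) (by omega) (by omega))
      (S.ne L (by omega) (by omega)) (S.ne (m - n + 2) (by omega) (by omega))
      (S.ne (n - 1 - 1) (by omega) (by omega)) h1 h2 h3.symm.symm h4 h5 h6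

/-- identification of `H` with the next division-polynomial value (`L ≥ 3`). -/
theorem ident (hQ : Q ≠ 0) (hL : 3 ≤ L) (H : K)
    (h2 : (xc Q - Xm Q (L + 1)) * sQ Q (L + 1) ^ 2 = H * sQ Q L) :
    H = sQ Q (L + 2) := by
  have hη := eta_sq' hQ
  obtain ⟨k, hk | hk⟩ := Int.even_or_odd' L
  · -- `L = 2k`, `L + 2 = 2 (k + 1)`
    have hk2 : 2 ≤ k := by omega
    have hg := S.gprime hQ H h2 (k + 1 + 1) (k + 1 - 1) (by omega) (by omega) (by omega)
    have t1 := S.three (k + 1 + 1) (by omega) (by omega)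
    have t2 := S.three (k + 1 - 1) (by omega) (by omega)
    have hev := sq_even (W := W) hη (k + 1)
    have e1 : k + 1 + 1 - (k + 1 - 1) = 2 := by ring
    have e2 : k + 1 + 1 + 1 = k + 1 + 2 := by ring
    have e3 : k + 1 + 1 - 1 = k + 1 := by ring
    have e4 : k + 1 - 1 + 1 = k + 1 := by ring
    have e5 : k + 1 - 1 - 1 = k + 1 - 2 := by ring
    have e6 : L + 2 = 2 * (k + 1) := by omega
    rw [e1, sQ_two] at hg
    rw [e2, e3] at t1
    rw [e4, e5] at t2
    rw [e6]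
    have hη0 : eta Q ≠ 0 := by
      have := S.ne 2 (by omega) (by omega)
      rwa [sQ_two] at this
    apply mul_right_cancel₀ hη0
    change H * eta Q = sq W (xc Q) (eta Q) (2 * (k + 1)) * eta Q
    rw [hev, hg]
    change _ = sQ Q (k + 1 - 1) ^ 2 * sQ Q (k + 1) * sQ Q (k + 1 + 2)
      - sQ Q (k + 1 - 2) * sQ Q (k + 1) * sQ Q (k + 1 + 1) ^ 2
    linear_combination (sQ Q (k + 1 - 1) ^ 2) * t1 - (sQ Q (k + 1 + 1) ^ 2) * t2
  · -- `L = 2k + 1`, `L + 2 = 2 (k + 1) + 1`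
    have hk1 : 1 ≤ k := by omega
    have hg := S.gprime hQ H h2 (k + 1 + 1) (k + 1) (by omega) (by omega) (by omega)
    have t1 := S.three (k + 1 + 1) (by omega) (by omega)
    have t2 := S.three (k + 1) (by omega) (by omega)
    have hod := sq_odd (W := W) hη (k + 1)
    have e1 : k + 1 + 1 - (k + 1) = 1 := by ring
    have e2 : k + 1 + 1 + 1 = k + 1 + 2 := by ring
    have e3 : k + 1 + 1 - 1 = k + 1 := by ring
    have e6 : L + 2 = 2 * (k + 1) + 1 := by omega
    rw [e1, sQ_one, mul_one] at hg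
    rw [e2, e3] at t1
    rw [e6]
    change H = sq W (xc Q) (eta Q) (2 * (k + 1) + 1)
    rw [hod, hg]
    change _ = sQ Q (k + 1 + 2) * sQ Q (k + 1) ^ 3 - sQ Q (k + 1 - 1) * sQ Q (k + 1 + 1) ^ 3
    linear_combination (sQ Q (k + 1) ^ 2) * t1 - (sQ Q (k + 1 + 1) ^ 2) * t2

end Stage

/-- the three-term relation at `L + 1` for small `L` and in general. -/
theorem three_next {Q : W.Point} (hQ : Q ≠ 0) {L : ℤ} (hL0 : 0 ≤ L) (S : Stage Q L) :
    (xc Q - Xm Q (L + 1)) * sQ Q (L + 1) ^ 2 = sQ Q (L + 2) * sQ Q L := by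
  have hQ1 : (1 : ℤ) • Q ≠ 0 := by simpa using hQ
  rcases lt_or_ge L 3 with hlt | hge
  · have hcases : L = 0 ∨ L = 1 ∨ L = 2 := by omega
    rcases hcases with rfl | rfl | rfl
    · -- `L = 0`
      simp [Xm_one, sQ_zero]
    · -- `L = 1`
      have h2Q : Q + Q ≠ 0 := by
        have := S.mul 2 (by omega) (by omega)
        rwa [two_smul] at this
      have hdup := xc_double hQ h2Q
      rw [← two_smul ℤ Q] at hdup
      have hη := eta_sq Q hQ
      norm_num
      rw [sQ_two, sQ_three, sQ_one, hη, psi3_eq]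
      change (xc Q - xc ((2 : ℤ) • Q)) * _ = _
      linear_combination (-1 : K) * hdup
    · -- `L = 2`
      have h2Q : Q + Q ≠ 0 := by
        have := S.mul 2 (by omega) (by omega)
        rwa [two_smul] at this
      have hdup := xc_double hQ h2Q
      rw [← two_smul ℤ Q] at hdup
      have hη := eta_sq Q hQ
      have hpair := symF_pair_mul (Q := Q) (m := 2) (n := 1) (S.mul 2 (by omega) (by omega)) hQ1
        (S.mul 3 (by omega) (by omega)) (by simpa using hQ1)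
      have e1 : (2 : ℤ) + 1 = 3 := by norm_num
      have e2 : (2 : ℤ) - 1 = 1 := by norm_num
      rw [e1, e2, Xm_one] at hpair
      have h0 := hpair 0
      have h1 := hpair 1
      rw [symF_eq_quadratic] at h0 h1
      have hδ : (xc Q - Xm Q 2) * psi2Sq W (xc Q) = psi3 W (xc Q) := by
        rw [psi3_eq]
        change (xc Q - xc ((2 : ℤ) • Q)) * _ = _
        linear_combination (-1 : K) * hdup
      have hS : (xc Q - Xm Q 3) * (xc Q - Xm Q 2) ^ 2
          = (xc Q - Xm Q 2) * (6 * xc Q ^ 2 + W.b₂ * xc Q + W.b₄) - psi2Sq W (xc Q) := by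
        unfold psi2Sq
        linear_combination h0 - h1
      norm_num
      rw [sQ_three, sQ_four, sQ_two, eval_preΨ₄, ← hδ]
      linear_combination (psi2Sq W (xc Q) ^ 2) * hS
        - ((psi2Sq W (xc Q) * (xc Q - Xm Q 2) * (6 * xc Q ^ 2 + W.b₂ * xc Q + W.b₄)
            - psi2Sq W (xc Q) ^ 2) ) * hη
  · -- general case
    have hJ : sQ Q L ≠ 0 := S.ne L (by omega) (by omega)
    have h2 : (xc Q - Xm Q (L + 1)) * sQ Q (L + 1) ^ 2
        = ((xc Q - Xm Q (L + 1)) * sQ Q (L + 1) ^ 2 / sQ Q L) * sQ Q L := by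
      field_simp
    have := S.ident hQ hge _ h2
    rw [← this]
    exact h2

theorem Xm_ne {Q : W.Point} {m n : ℤ} (hm : m • Q ≠ 0) (hn : n • Q ≠ 0)
    (hp : (m + n) • Q ≠ 0) (hd : (m - n) • Q ≠ 0) : Xm Q m ≠ Xm Q n := by
  have hp' : m • Q + n • Q ≠ 0 := by rwa [← add_smul]
  have hd' : m • Q - n • Q ≠ 0 := by rwa [← sub_smul]
  exact xc_ne_of_add_sub_ne_zero hm hn hp' hd'

/-- **Ward relations by induction.** -/
theorem ward {Q : W.Point} (hQ : Q ≠ 0) (L : ℕ)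
    (hmul : ∀ j : ℤ, 0 < j → j ≤ L → j • Q ≠ 0) :
    (∀ j : ℤ, 0 < j → j ≤ L → sQ Q j ≠ 0) ∧
    (∀ m n : ℤ, 0 < n → n < m → m + n ≤ L + 1 →
      sQ Q (m + n) * sQ Q (m - n) = (Xm Q n - Xm Q m) * sQ Q m ^ 2 * sQ Q n ^ 2) := by
  induction L with
  | zero =>
    refine ⟨fun j h1 h2 => ?_, fun m n h1 h2 h3 => ?_⟩
    · simp only [Nat.cast_zero] at h2; omega
    · simp only [Nat.cast_zero] at h3; omega
  | succ L ih =>
    have hQ1 : (1 : ℤ) • Q ≠ 0 := by simpa using hQ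
    have hmul' : ∀ j : ℤ, 0 < j → j ≤ (L : ℤ) + 1 → j • Q ≠ 0 := fun j h1 h2 =>
      hmul j h1 (by push_cast; omega)
    obtain ⟨hA, hB⟩ := ih (fun j h1 h2 => hmul' j h1 (by omega))
    have hA' : ∀ j : ℤ, 0 < j → j ≤ (L : ℤ) + 1 → sQ Q j ≠ 0 := by
      intro j h1 h2
      rcases lt_or_eq_of_le h2 with h | h
      · exact hA j h1 (by omega)
      · subst h
        rcases Nat.lt_or_ge L 2 with hL | hL
        · interval_cases L
          · simp [sQ_one]
          · norm_num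
            rw [sQ_two]
            intro h0
            have := (eta_eq_zero_iff Q hQ).mp h0
            have h2Q := hmul' 2 (by omega) (by norm_num)
            rw [two_smul] at h2Q
            exact h2Q this
        · have hL2 : (2 : ℤ) ≤ L := by exact_mod_cast hL
          have hrel := hB L 1 one_pos (by omega) (by omega)
          have hne : Xm Q 1 ≠ Xm Q L := by
            refine (Xm_ne (hmul' L (by omega) (by omega)) hQ1 (hmul' _ (by omega) le_rfl)
              (hmul' _ (by omega) (by omega))).symm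
          have hLne := hA L (by omega) le_rfl
          rw [sQ_one] at hrel
          have : sQ Q (L + 1) * sQ Q (L - 1) ≠ 0 := by
            rw [hrel]
            have := sub_ne_zero.mpr hne
            simp [this, hLne]
          exact left_ne_zero_of_mul this
    have S : Stage Q L := ⟨hmul', hA', hB⟩
    have hTT := three_next hQ (by positivity) S
    refine ⟨fun j h1 h2 => hA' j h1 (by push_cast at h2; omega), ?_⟩
    intro m n hn hnm hsum
    push_cast at hsum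
    rcases lt_or_eq_of_le hsum with h | h
    · exact hB m n hn hnm (by omega)
    · rcases eq_or_lt_of_le (show 1 ≤ n by omega) with hn1 | hn2
      · subst hn1
        have hm : m = L + 1 := by omega
        subst hm
        rw [Xm_one, sQ_one]
        have e1 : (L : ℤ) + 1 + 1 = L + 2 := by ring
        have e2 : (L : ℤ) + 1 - 1 = L := by ring
        rw [e1, e2]
        linear_combination (-1 : K) * hTT
      · have hg := S.gprime hQ (sQ Q (L + 2)) hTT m n (by omega) hnm (by omega)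
        have e1 : m + n = (L : ℤ) + 2 := by omega
        rw [e1]
        exact hg

/-! ### Consequences -/

/-- If `j • Q ≠ 0` for `0 < j ≤ L` then `ψ_j(Q) ≠ 0` for `0 < j ≤ L`. -/
theorem sQ_ne_zero {Q : W.Point} (hQ : Q ≠ 0) (L : ℕ)
    (hmul : ∀ j : ℤ, 0 < j → j ≤ L → j • Q ≠ 0) (j : ℤ) (h1 : 0 < j) (h2 : j ≤ L) :
    sQ Q j ≠ 0 :=
  (ward hQ L hmul).1 j h1 h2

/-- the multiplication-by-`j` formula for the `x`-coordinate, in three-term form. -/
theorem xc_sub_Xm_mul {Q : W.Point} (hQ : Q ≠ 0) (L : ℕ)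
    (hmul : ∀ j : ℤ, 0 < j → j ≤ L → j • Q ≠ 0) (j : ℤ) (h1 : 0 < j) (h2 : j ≤ L) :
    (xc Q - Xm Q j) * sQ Q j ^ 2 = sQ Q (j + 1) * sQ Q (j - 1) := by
  rcases eq_or_lt_of_le (show 1 ≤ j by omega) with hj | hj
  · subst hj; simp [Xm_one, sQ_zero]
  · have := (ward hQ L hmul).2 j 1 one_pos hj (by omega)
    rw [Xm_one, sQ_one] at this
    rw [this]; ring

/-- If `N ≥ 2` is the exact order of `Q`, then `ψ_N(Q) = 0`. -/
theorem sQ_eq_zero_of_order {Q : W.Point} (hQ : Q ≠ 0) (N : ℕ) (hN : 2 ≤ N)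
    (hmul : ∀ j : ℤ, 0 < j → j < N → j • Q ≠ 0) (hNQ : (N : ℤ) • Q = 0) :
    sQ Q N = 0 := by
  rcases eq_or_lt_of_le hN with hN2 | hN3
  · subst hN2
    norm_num at hNQ ⊢
    rw [sQ_two, eta_eq_zero_iff Q hQ, ← two_smul ℤ Q]
    exact hNQ
  · obtain ⟨L, rfl⟩ : ∃ L : ℕ, N = L + 1 := ⟨N - 1, by omega⟩
    have hmul' : ∀ j : ℤ, 0 < j → j ≤ L → j • Q ≠ 0 := fun j h1 h2 =>
      hmul j h1 (by push_cast; omega)
    have hL2 : (2 : ℤ) ≤ L := by
      have : 2 ≤ L := by omega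
      exact_mod_cast this
    have h := xc_sub_Xm_mul hQ L hmul' L (by omega) le_rfl
    have hX : Xm Q L = xc Q := by
      have : (L : ℤ) • Q = -Q := by
        have h1 : ((L : ℤ) + 1) • Q = 0 := by
          have : ((L + 1 : ℕ) : ℤ) = (L : ℤ) + 1 := by push_cast; ring
          rw [← this]; exact hNQ
        rw [add_smul, one_smul] at h1
        exact eq_neg_of_add_eq_zero_left h1
      rw [Xm, this, xc_neg]
    rw [hX, sub_self, zero_mul] at h
    have hne := sQ_ne_zero hQ L hmul' (L - 1) (by omega) (by omega)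
    have : sQ Q (L + 1) = 0 := by
      rcases mul_eq_zero.mp h.symm with h0 | h0
      · exact h0
      · exact absurd h0 hne
    have e : ((L + 1 : ℕ) : ℤ) = (L : ℤ) + 1 := by push_cast; ring
    rw [e]; exact this

end Geom

end Fermat.Agent.S13.DP
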