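import Mathlib

/-!
# T13 / DP3 by density

A bivariate polynomial that vanishes at all points of a Weierstrass curve over an algebraically
closed field, except possibly at those with `x`-coordinate in a finite set, vanishes at all points
of the curve.
-/

set_option autoImplicit false

open Polynomial
open scoped Polynomial.Bivariate

namespace Fermat.Agent.S13.DP.Density

open WeierstrassCurve

variable {K : Type*} [Field K]

/-- On the curve, a bivariate polynomial and its remainder modulo the Weierstrass polynomial
take the same value. -/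
theorem evalEval_modByMonic (W : Affine K) (e : K[X][Y]) {x y : K} (h : W.Equation x y) :
    (e %ₘ W.polynomial).evalEval x y = e.evalEval x y := by
  have h1 := Polynomial.modByMonic_add_div e W.polynomial
  have h2 : e.evalEval x y
      = (e %ₘ W.polynomial).evalEval x y + (W.polynomial * (e /ₘ W.polynomial)).evalEval x y := by
    conv_lhs => rw [← h1]
    rw [evalEval_add]
  rw [h2, evalEval_mul]
  have h3 : W.polynomial.evalEval x y = 0 := h
  rw [h3, zero_mul, add_zero]

/-- Evaluation of a bivariate polynomial of `Y`-degree at most one. -/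
theorem evalEval_of_natDegree_le_one (r : K[X][Y]) (hr : r.natDegree ≤ 1) (x y : K) :
    r.evalEval x y = (r.coeff 0).eval x + (r.coeff 1).eval x * y := by
  conv_lhs => rw [Polynomial.eq_X_add_C_of_natDegree_le_one hr]
  simp only [evalEval_add, evalEval_mul, evalEval_C, evalEval_X]
  ring

theorem natDegree_modByMonic_polynomial_le (W : Affine K) (e : K[X][Y]) :
    (e %ₘ W.polynomial).natDegree ≤ 1 := by
  have hne : W.polynomial ≠ 1 := by
    intro h1
    have := Affine.natDegree_polynomial (W := W)
    rw [h1, natDegree_one] at this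
    exact absurd this (by norm_num)
  have h := Polynomial.natDegree_modByMonic_lt e W.monic_polynomial hne
  rw [Affine.natDegree_polynomial] at h
  omega

/-- `η² = Ψ₂Sq(x)` on the curve. -/
theorem sub_negY_sq (W : Affine K) {x y : K} (h : W.Equation x y) :
    (y - W.negY x y) ^ 2 = W.Ψ₂Sq.eval x := by
  rw [Affine.equation_iff] at h
  simp only [Affine.negY, WeierstrassCurve.Ψ₂Sq, WeierstrassCurve.b₂, WeierstrassCurve.b₄,
    WeierstrassCurve.b₆, eval_add, eval_mul, eval_C, eval_pow, eval_X]
  linear_combination 4 * h

theorem exists_equation [IsAlgClosed K] (W : Affine K) (x : K) : ∃ y, W.Equation x y := by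
  set q : K[X] := X ^ 2 + C (W.a₁ * x + W.a₃) * X - C (x ^ 3 + W.a₂ * x ^ 2 + W.a₄ * x + W.a₆)
    with hq
  have hdeg : q.natDegree = 2 := by
    rw [hq]; compute_degree!
  have hq0 : q ≠ 0 := by
    intro h0
    rw [h0, natDegree_zero] at hdeg
    exact absurd hdeg (by norm_num)
  have hd : q.degree ≠ 0 := by
    rw [degree_eq_natDegree hq0, hdeg]; norm_num
  obtain ⟨y, hy⟩ := IsAlgClosed.exists_root q hd
  refine ⟨y, ?_⟩
  rw [Affine.equation_iff]
  rw [IsRoot.def, hq] at hy
  simp only [eval_sub, eval_add, eval_pow, eval_X, eval_mul, eval_C] at hy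
  linear_combination hy

/-- **Density lemma**: a bivariate polynomial vanishing at all points of the curve with
`x`-coordinate outside a finite set vanishes at all points of the curve. -/
theorem evalEval_eq_zero_of_cofinite [IsAlgClosed K] (h4 : (4 : K) ≠ 0) (W : Affine K)
    (e : K[X][Y]) (S : Finset K)
    (hS : ∀ x y, W.Equation x y → x ∉ S → e.evalEval x y = 0) :
    ∀ x y, W.Equation x y → e.evalEval x y = 0 := by
  classical
  set r := e %ₘ W.polynomial with hr
  have hdeg : r.natDegree ≤ 1 := natDegree_modByMonic_polynomial_le W e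
  have hΨ : W.Ψ₂Sq ≠ 0 := W.Ψ₂Sq_ne_zero h4
  -- the bad set
  set T : Finset K := S ∪ W.Ψ₂Sq.roots.toFinset with hT
  have hinf : (↑T : Set K)ᶜ.Infinite := T.finite_toSet.infinite_compl
  -- both coefficients vanish off the bad set
  have hroot : ∀ x, x ∉ T → (r.coeff 1).eval x = 0 ∧ (r.coeff 0).eval x = 0 := by
    intro x hx
    rw [hT, Finset.mem_union, not_or] at hx
    obtain ⟨hxS, hxΨ⟩ := hx
    have hΨx : W.Ψ₂Sq.eval x ≠ 0 := by
      intro h0
      apply hxΨ
      rw [Multiset.mem_toFinset, mem_roots hΨ]
      exact h0
    obtain ⟨y, hy⟩ := exists_equation W x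
    have hy' : W.Equation x (W.negY x y) := (Affine.equation_neg x y).mpr hy
    have e1 := hS x y hy hxS
    have e2 := hS x _ hy' hxS
    rw [← evalEval_modByMonic W e hy, evalEval_of_natDegree_le_one r hdeg] at e1
    rw [← evalEval_modByMonic W e hy', evalEval_of_natDegree_le_one r hdeg] at e2
    have hη : y - W.negY x y ≠ 0 := by
      intro h0
      apply hΨx
      rw [← sub_negY_sq W hy, h0]
      ring
    have hB : (r.coeff 1).eval x * (y - W.negY x y) = 0 := by
      linear_combination e1 - e2
    have hB0 : (r.coeff 1).eval x = 0 := by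
      rcases mul_eq_zero.mp hB with h | h
      · exact h
      · exact absurd h hη
    refine ⟨hB0, ?_⟩
    rw [hB0] at e1
    linear_combination e1
  have hB : r.coeff 1 = 0 := by
    apply Polynomial.eq_zero_of_infinite_isRoot
    refine hinf.mono ?_
    intro x hx
    exact (hroot x hx).1
  have hA : r.coeff 0 = 0 := by
    apply Polynomial.eq_zero_of_infinite_isRoot
    refine hinf.mono ?_
    intro x hx
    exact (hroot x hx).2
  intro x y hxy
  rw [← evalEval_modByMonic W e hxy, evalEval_of_natDegree_le_one r hdeg, hA, hB]
  simp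

end Fermat.Agent.S13.DP.Density
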