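import Fermat.Agent.S05.XOnly

/-!
# S13 / DP1: the symmetric biquadratic form and the `x`-only pair law on points

`symF W t u v` is the classical symmetric `(2,2,2)`-form: for affine points `Q, R` with
`x(Q) = u ≠ v = x(R)`, its roots in `t` are `x(Q + R)` and `x(Q - R)`.
-/

set_option autoImplicit false
set_option linter.unusedSectionVars false

namespace Fermat.Agent.S13.DP

open WeierstrassCurve WeierstrassCurve.Affine

variable {K : Type*} [Field K]

/-- The symmetric biquadratic form attached to a Weierstrass curve. -/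
def symF (W : Affine K) (t u v : K) : K :=
  t ^ 2 * u ^ 2 + t ^ 2 * v ^ 2 + u ^ 2 * v ^ 2 - 2 * t * u * v * (t + u + v)
    - W.b₂ * t * u * v - W.b₄ * (t * u + t * v + u * v) - W.b₆ * (t + u + v) - W.b₈

variable (W : Affine K)

theorem symF_swap₁₂ (t u v : K) : symF W t u v = symF W u t v := by
  unfold symF; ring

theorem symF_swap₂₃ (t u v : K) : symF W t u v = symF W t v u := by
  unfold symF; ring

theorem symF_rot (t u v : K) : symF W t u v = symF W u v t := by
  unfold symF; ring

/-- `symF` as a quadratic in `t`. -/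
theorem symF_eq_quadratic (t u v : K) :
    symF W t u v = (u - v) ^ 2 * t ^ 2
      - (2 * u * v * (u + v) + W.b₂ * u * v + W.b₄ * (u + v) + W.b₆) * t
      + (u ^ 2 * v ^ 2 - W.b₄ * u * v - W.b₆ * (u + v) - W.b₈) := by
  unfold symF; ring

/-- `Ψ₂Sq` evaluated at `x`, written out. -/
def psi2Sq (x : K) : K := 4 * x ^ 3 + W.b₂ * x ^ 2 + 2 * W.b₄ * x + W.b₆

/-- `Φ₂` evaluated at `x`, written out. -/
def phi2 (x : K) : K := x ^ 4 - W.b₄ * x ^ 2 - 2 * W.b₆ * x - W.b₈

/-- `Ψ₃` evaluated at `x`, written out. -/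
def psi3 (x : K) : K := 3 * x ^ 4 + W.b₂ * x ^ 3 + 3 * W.b₄ * x ^ 2 + 3 * W.b₆ * x + W.b₈

theorem psi3_eq (x : K) : psi3 W x = x * psi2Sq W x - phi2 W x := by
  unfold psi3 psi2Sq phi2; ring

/-- the diagonal value of `symF`. -/
theorem symF_diag (u v : K) : symF W v u v = phi2 W v - u * psi2Sq W v := by
  unfold symF phi2 psi2Sq; ring

variable {W}
variable [DecidableEq K]

/-- `x`-coordinate of a point (junk value `0` at the point at infinity). -/
def xc : W.Point → K
  | 0 => 0
  | .some x _ _ => x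

@[simp] theorem xc_zero : xc (0 : W.Point) = 0 := rfl

@[simp] theorem xc_some {x y : K} (h : W.Nonsingular x y) : xc (Point.some x y h) = x := rfl

theorem xc_neg (Q : W.Point) : xc (-Q) = xc Q := by
  cases Q with
  | zero => rfl
  | some x y h => rfl

/-- Two affine points with the same `x`-coordinate are equal or opposite. -/
theorem eq_or_eq_neg_of_xc_eq {Q R : W.Point} (hQ : Q ≠ 0) (hR : R ≠ 0) (h : xc Q = xc R) :
    Q = R ∨ Q = -R := by
  cases Q with
  | zero => exact absurd rfl hQ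
  | some x₁ y₁ h₁ =>
    cases R with
    | zero => exact absurd rfl hR
    | some x₂ y₂ h₂ =>
      simp only [xc_some] at h
      subst h
      rcases Y_eq_of_X_eq h₁.1 h₂.1 rfl with hy | hy
      · left; subst hy; rfl
      · right
        rw [Point.neg_some]
        congr 1

/-- If `Q ≠ ±R` then the `x`-coordinates differ. -/
theorem xc_ne_of_add_sub_ne_zero {Q R : W.Point} (hQ : Q ≠ 0) (hR : R ≠ 0)
    (hp : Q + R ≠ 0) (hm : Q - R ≠ 0) : xc Q ≠ xc R := by
  intro h
  rcases eq_or_eq_neg_of_xc_eq hQ hR h with rfl | rfl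
  · exact hm (sub_self _)
  · exact hp (by simp)

/-- **Pair law**: for affine points `Q ≠ ±R`, the roots of `symF t (x Q) (x R)` in `t` are
`x(Q+R)` and `x(Q-R)`. -/
theorem symF_pair {Q R : W.Point} (hQ : Q ≠ 0) (hR : R ≠ 0)
    (hp : Q + R ≠ 0) (hm : Q - R ≠ 0) (t : K) :
    symF W t (xc Q) (xc R) = (xc Q - xc R) ^ 2 * (t - xc (Q + R)) * (t - xc (Q - R)) := by
  have hx := xc_ne_of_add_sub_ne_zero hQ hR hp hm
  cases Q with
  | zero => exact absurd rfl hQ
  | some x₁ y₁ h₁ =>
    cases R with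
    | zero => exact absurd rfl hR
    | some x₂ y₂ h₂ =>
      simp only [xc_some] at hx ⊢
      obtain ⟨xp, yp, xm, ym, hpn, hmn, e1, e2, e3, e4⟩ :=
        Fermat.Agent.S05.exists_add_sub h₁ h₂ hx
      rw [e1, e2, xc_some, xc_some, symF_eq_quadratic]
      linear_combination t * e3 - e4

/-- **Duplication law**: if `2Q ≠ 0` then `x(2Q) Ψ₂Sq(x Q) = Φ₂(x Q)`. -/
theorem xc_double {Q : W.Point} (hQ : Q ≠ 0) (h2 : Q + Q ≠ 0) :
    xc (Q + Q) * psi2Sq W (xc Q) = phi2 W (xc Q) := by
  cases Q with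
  | zero => exact absurd rfl hQ
  | some x₁ y₁ h₁ =>
    have hy : y₁ ≠ W.negY x₁ y₁ := by
      intro hy
      exact h2 (Fermat.Agent.S05.double_eq_zero h₁ hy)
    obtain ⟨x, y, h, e1, e2⟩ := Fermat.Agent.S05.exists_double h₁ hy
    rw [e1, xc_some, xc_some]
    unfold psi2Sq phi2
    linear_combination e2

/-- `η = 2y + a₁x + a₃` of a point (junk `0` at infinity). -/
def eta : W.Point → K
  | 0 => 0
  | .some x y _ => y - W.negY x y

theorem eta_sq (Q : W.Point) (hQ : Q ≠ 0) : eta Q ^ 2 = psi2Sq W (xc Q) := by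
  cases Q with
  | zero => exact absurd rfl hQ
  | some x y h =>
    simp only [eta, xc_some]
    unfold psi2Sq
    exact Fermat.Agent.S05.eta_sq h.1

theorem eta_eq_zero_iff (Q : W.Point) (hQ : Q ≠ 0) : eta Q = 0 ↔ Q + Q = 0 := by
  cases Q with
  | zero => exact absurd rfl hQ
  | some x y h =>
    simp only [eta]
    constructor
    · intro h0
      exact Point.add_self_of_Y_eq (sub_eq_zero.mp h0)
    · intro h0
      by_contra hne
      have hy : y ≠ W.negY x y := fun e => hne (sub_eq_zero.mpr e)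
      rw [Point.add_self_of_Y_ne hy] at h0
      exact Point.some_ne_zero _ h0

end Fermat.Agent.S13.DP
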