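import Mathlib
import Fermat.Agent.S13.DP.Basic

/-!
# S13 / DP-ID (tasks row 111, helper88): ring identities between small division polynomials

Over any commutative ring (only `W.b_relation` is used):

* `preΨ₄_eq` (T3) : `preΨ₄ = Ψ₃ * (6 X² + b₂ X + b₄) - Ψ₂Sq²`
* `preΨ₄_sq_eq` (D4) : `preΨ₄² = 4 Φ₂³ + b₂ Φ₂² Ψ₂Sq + 2 b₄ Φ₂ Ψ₂Sq² + b₆ Ψ₂Sq³`
* `sixteen_Φ_two` (F2) : `16 Φ₂ = (Ψ₂Sq')² - Ψ₂Sq (32 X + 4 b₂)`
* `Ψ₃_eq` : `Ψ₃ = X Ψ₂Sq - Φ₂`

and their evaluated forms in the language of `DP/Basic.lean`, then the small-order facts.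
-/

set_option autoImplicit false
set_option linter.unusedSimpArgs false

namespace Fermat.Agent.S13.DP.Identities

open Polynomial WeierstrassCurve

section Ring

variable {R : Type*} [CommRing R] (W : WeierstrassCurve R)

/-- (T3) the tripling identity. -/
theorem preΨ₄_eq :
    W.preΨ₄ = W.Ψ₃ * (6 * X ^ 2 + C W.b₂ * X + C W.b₄) - W.Ψ₂Sq ^ 2 := by
  have h := congrArg C W.b_relation
  simp only [map_ofNat, C_0, C_1, C_neg, C_add, C_sub, C_mul, C_pow] at h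
  rw [preΨ₄, Ψ₃, Ψ₂Sq]
  simp only [map_ofNat, C_0, C_1, C_neg, C_add, C_sub, C_mul, C_pow]
  linear_combination (X ^ 2 : R[X]) * h

/-- `Ψ₃ = X Ψ₂Sq - Φ₂`. -/
theorem Ψ₃_eq : W.Ψ₃ = X * W.Ψ₂Sq - W.Φ 2 := by
  rw [Ψ₃, Ψ₂Sq, Φ_two]
  simp only [map_ofNat, C_0, C_1, C_neg, C_add, C_sub, C_mul, C_pow]
  ring1

/-- (F2) `16 Φ₂ = (Ψ₂Sq')² - Ψ₂Sq (32 X + 4 b₂)`. -/
theorem sixteen_Φ_two :
    16 * W.Φ 2 = (derivative W.Ψ₂Sq) ^ 2 - W.Ψ₂Sq * (32 * X + 4 * C W.b₂) := by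
  have h := congrArg C W.b_relation
  simp only [map_ofNat, C_0, C_1, C_neg, C_add, C_sub, C_mul, C_pow] at h
  have hd : derivative W.Ψ₂Sq = 12 * X ^ 2 + 2 * C W.b₂ * X + 2 * C W.b₄ := by
    rw [Ψ₂Sq]
    simp only [derivative_add, derivative_mul, derivative_C, derivative_X_pow, derivative_X,
      zero_mul, zero_add, mul_one, add_zero]
    simp only [Nat.cast_ofNat, map_ofNat, C_mul]
    norm_num
    ring1
  rw [hd, Ψ₂Sq, Φ_two]
  simp only [map_ofNat, C_0, C_1, C_neg, C_add, C_sub, C_mul, C_pow]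
  linear_combination (-4 : R[X]) * h

/-- (D4) the square of `preΨ₄` in terms of `Φ₂` and `Ψ₂Sq`
(the duplication formula applied to `Ψ₂Sq`). -/
theorem preΨ₄_sq_eq :
    W.preΨ₄ ^ 2 = 4 * W.Φ 2 ^ 3 + C W.b₂ * W.Φ 2 ^ 2 * W.Ψ₂Sq
      + C (2 * W.b₄) * W.Φ 2 * W.Ψ₂Sq ^ 2 + C W.b₆ * W.Ψ₂Sq ^ 3 := by
  have h := congrArg C W.b_relation
  simp only [map_ofNat, C_0, C_1, C_neg, C_add, C_sub, C_mul, C_pow] at h
  rw [preΨ₄, Ψ₂Sq, Φ_two]
  simp only [map_ofNat, C_0, C_1, C_neg, C_add, C_sub, C_mul, C_pow]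
  linear_combination
    (13 * X ^ 8 + 8 * X ^ 7 * C W.b₂ + X ^ 6 * C W.b₂ ^ 2 + 28 * X ^ 6 * C W.b₄
      + 6 * X ^ 5 * C W.b₂ * C W.b₄ + 38 * X ^ 5 * C W.b₆ + 7 * X ^ 4 * C W.b₂ * C W.b₆
      + 8 * X ^ 4 * C W.b₄ ^ 2 + 22 * X ^ 4 * C W.b₈ + 4 * X ^ 3 * C W.b₂ * C W.b₈
      + 16 * X ^ 3 * C W.b₄ * C W.b₆ + 8 * X ^ 2 * C W.b₄ * C W.b₈ + 7 * X ^ 2 * C W.b₆ ^ 2
      + 6 * X * C W.b₆ * C W.b₈ + C W.b₈ ^ 2 : R[X]) * h

end Ring

section Field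

open Fermat.Agent.S13.DP WeierstrassCurve.Affine

variable {K : Type*} [Field K] (W : Affine K)

/-! ### Evaluation bridges to the written-out forms of `DP/Basic.lean` -/

theorem eval_Ψ₂Sq (x : K) : (W.Ψ₂Sq).eval x = psi2Sq W x := by
  rw [Ψ₂Sq, psi2Sq]
  simp only [eval_add, eval_mul, eval_pow, eval_C, eval_X]

theorem eval_Φ_two (x : K) : (W.Φ 2).eval x = phi2 W x := by
  rw [Φ_two, phi2]
  simp only [eval_sub, eval_mul, eval_pow, eval_C, eval_X]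

theorem eval_Ψ₃ (x : K) : (W.Ψ₃).eval x = psi3 W x := by
  rw [Ψ₃, psi3]
  simp only [eval_add, eval_mul, eval_pow, eval_C, eval_X, eval_ofNat]

/-- derivative of `Ψ₂Sq`, evaluated. -/
theorem eval_derivative_Ψ₂Sq (x : K) :
    (derivative W.Ψ₂Sq).eval x = 12 * x ^ 2 + 2 * W.b₂ * x + 2 * W.b₄ := by
  have hd : derivative W.Ψ₂Sq = 12 * X ^ 2 + 2 * C W.b₂ * X + 2 * C W.b₄ := by
    rw [Ψ₂Sq]
    simp only [derivative_add, derivative_mul, derivative_C, derivative_X_pow, derivative_X,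
      zero_mul, zero_add, mul_one, add_zero]
    simp only [Nat.cast_ofNat, map_ofNat, C_mul]
    norm_num
    ring1
  rw [hd]
  simp only [eval_add, eval_mul, eval_pow, eval_C, eval_X, eval_ofNat]

/-- (F2) evaluated: `16 φ₂(x) = (12x² + 2b₂x + 2b₄)² - ψ₂²(x) (32x + 4b₂)`. -/
theorem sixteen_phi2 (x : K) :
    16 * phi2 W x = (12 * x ^ 2 + 2 * W.b₂ * x + 2 * W.b₄) ^ 2
      - psi2Sq W x * (32 * x + 4 * W.b₂) := by
  have h := congrArg (Polynomial.eval x) (sixteen_Φ_two W)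
  simp only [eval_mul, eval_sub, eval_pow, eval_add, eval_C, eval_X, eval_ofNat,
    eval_Φ_two, eval_Ψ₂Sq, eval_derivative_Ψ₂Sq] at h
  exact h

/-- (T3) evaluated. -/
theorem eval_preΨ₄ (x : K) :
    (W.preΨ₄).eval x = psi3 W x * (6 * x ^ 2 + W.b₂ * x + W.b₄) - psi2Sq W x ^ 2 := by
  have h := congrArg (Polynomial.eval x) (preΨ₄_eq W)
  simp only [eval_mul, eval_sub, eval_pow, eval_add, eval_C, eval_X, eval_ofNat,
    eval_Ψ₃, eval_Ψ₂Sq] at h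
  exact h

/-- (D4) evaluated. -/
theorem eval_preΨ₄_sq (x : K) :
    (W.preΨ₄).eval x ^ 2 = 4 * phi2 W x ^ 3 + W.b₂ * phi2 W x ^ 2 * psi2Sq W x
      + 2 * W.b₄ * phi2 W x * psi2Sq W x ^ 2 + W.b₆ * psi2Sq W x ^ 3 := by
  have h := congrArg (Polynomial.eval x) (preΨ₄_sq_eq W)
  simp only [eval_mul, eval_sub, eval_pow, eval_add, eval_C, eval_X, eval_ofNat,
    eval_Φ_two, eval_Ψ₂Sq] at h
  exact h

variable {W}
variable [DecidableEq K]

/-- (a) At a point of exact order `2` (characteristic `≠ 2`), `ψ₃` does not vanish. -/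
theorem psi3_ne_zero_of_two_torsion (h2 : (2 : K) ≠ 0) {Q : W.Point} (hQ : Q ≠ 0)
    (hQQ : Q + Q = 0) : psi3 W (xc Q) ≠ 0 := by
  have heta : eta Q = 0 := (eta_eq_zero_iff Q hQ).mpr hQQ
  have hpsi : psi2Sq W (xc Q) = 0 := by rw [← eta_sq Q hQ, heta]; ring
  cases Q with
  | zero => exact absurd rfl hQ
  | some x y h =>
    simp only [xc_some] at hpsi ⊢
    simp only [eta] at heta
    -- `2 y + a₁ x + a₃ = 0`
    have hy : 2 * y + W.a₁ * x + W.a₃ = 0 := by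
      rw [Affine.negY] at heta
      linear_combination heta
    -- nonsingularity gives `F_x ≠ 0`
    have hFx : W.a₁ * y - (3 * x ^ 2 + 2 * W.a₂ * x + W.a₄) ≠ 0 := by
      rcases (Affine.nonsingular_iff x y).mp h with ⟨_, hx | hy'⟩
      · exact sub_ne_zero.mpr hx
      · exfalso
        apply hy'
        linear_combination hy
    have hder : 12 * x ^ 2 + 2 * W.b₂ * x + 2 * W.b₄
        = -4 * (W.a₁ * y - (3 * x ^ 2 + 2 * W.a₂ * x + W.a₄)) := by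
      rw [b₂, b₄]
      linear_combination (2 * W.a₁) * hy
    have h16 := sixteen_phi2 W x
    rw [hpsi, zero_mul, sub_zero, hder] at h16
    have hphi : phi2 W x ≠ 0 := by
      intro h0
      rw [h0, mul_zero] at h16
      have : (-4 * (W.a₁ * y - (3 * x ^ 2 + 2 * W.a₂ * x + W.a₄))) = 0 :=
        pow_eq_zero_iff (two_ne_zero) |>.mp h16.symm
      have h4 : (-4 : K) ≠ 0 := by
        have : (-4 : K) = -(2 * 2) := by ring
        rw [this]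
        exact neg_ne_zero.mpr (mul_ne_zero h2 h2)
      exact hFx ((mul_eq_zero.mp this).resolve_left h4)
    rw [psi3_eq, hpsi, mul_zero, zero_sub]
    exact neg_ne_zero.mpr hphi

/-- (b) At a point of exact order `3`, `preΨ₄` does not vanish. -/
theorem preΨ₄_ne_zero_of_three_torsion {Q : W.Point} (hQ : Q ≠ 0) (hQQ : Q + Q ≠ 0)
    (h3 : (3 : ℕ) • Q = 0) : (W.preΨ₄).eval (xc Q) ≠ 0 := by
  have h2Q : Q + Q = -Q := by
    have : Q + Q + Q = 0 := by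
      have : (3 : ℕ) • Q = Q + Q + Q := by
        rw [show (3 : ℕ) = 2 + 1 from rfl, add_nsmul, two_nsmul, one_nsmul]
      rw [← this]; exact h3
    exact eq_neg_of_add_eq_zero_left this
  have hx2 : xc (Q + Q) = xc Q := by rw [h2Q, xc_neg]
  have hdup := xc_double hQ hQQ
  rw [hx2] at hdup
  have heta : eta Q ≠ 0 := fun h => hQQ ((eta_eq_zero_iff Q hQ).mp h)
  have hpsi : psi2Sq W (xc Q) ≠ 0 := by
    rw [← eta_sq Q hQ]; exact pow_ne_zero 2 heta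
  have hsq := eval_preΨ₄_sq W (xc Q)
  rw [← hdup] at hsq
  have : (W.preΨ₄).eval (xc Q) ^ 2 = psi2Sq W (xc Q) ^ 4 := by
    rw [hsq]
    unfold psi2Sq
    ring
  intro h0
  rw [h0] at this
  have : psi2Sq W (xc Q) ^ 4 = 0 := by rw [← this]; ring
  exact hpsi (pow_eq_zero_iff (by norm_num) |>.mp this)

end Field

end Fermat.Agent.S13.DP.Identities
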