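import Fermat.Agent.S13.DP.Ward
import Fermat.Agent.S13.DivKey
import Fermat.Agent.S13.DP.Main

/-!
# T13 / KEY (unconditional)

Bridge between the pointwise Ward theorem of `DP/Ward.lean` (sequence `sQ Q j = preΨ_j(x) * η^{[2∣j]}`)
and the abstract `Div.DP2Statement` consumed by `DivKey.key` (sequence `normEDS η Ψ₃(x) preΨ₄(x)`),
yielding `DPmain.Key W p` for odd primes `p` in characteristic zero with `Δ ≠ 0`.
-/

set_option autoImplicit false

namespace Fermat.Agent.S13.DP.KeyBridge

open WeierstrassCurve Polynomial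

universe u

section bridge

variable {F : Type*} [Field F] (W : WeierstrassCurve F)

/-- On the curve, helper94's `Div.sq` (normEDS form) is the `sq` of `DP/Seq.lean`. -/
theorem div_sq_eq {x y : F} (h : W.toAffine.Equation x y) (n : ℤ) :
    Div.sq W x y n = DP.sq W x (2 * y + W.a₁ * x + W.a₃) n := by
  rw [Div.sq, normEDS, DP.sq, WeierstrassCurve.preΨ, ← coe_evalRingHom, map_preNormEDS]
  congr 2
  rw [Affine.equation_iff] at h
  simp only [coe_evalRingHom, eval_pow, Ψ₂Sq, b₂, b₄, b₆]
  simp only [eval_add, eval_mul, eval_C, eval_pow, eval_X]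
  linear_combination (4 * (2 * y + W.a₁ * x + W.a₃) ^ 2 + 4 * (4 * x ^ 3 + (W.a₁ ^ 2 + 4 * W.a₂) * x ^ 2 + 2 * (2 * W.a₄ + W.a₁ * W.a₃) * x + (W.a₃ ^ 2 + 4 * W.a₆))) * h

variable [DecidableEq F]

theorem div_sq_eq_sQ {x y : F} (h : W.toAffine.Nonsingular x y) (n : ℤ) :
    Div.sq W x y n = DP.sQ (W := W.toAffine) (Affine.Point.some x y h) n := by
  rw [div_sq_eq W h.1, DP.sQ]
  congr 1
  simp only [DP.eta, Affine.negY]
  ring

end bridge

/-- The abstract pointwise statement DP2 of `DivDefs.lean` holds. -/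
theorem dp2Statement : Div.DP2Statement.{u} := by
  intro F _ _ W x y h N hmin
  set Q : W.toAffine.Point := Affine.Point.some x y h with hQdef
  have hQ : Q ≠ 0 := Affine.Point.some_ne_zero h
  have hs : ∀ n : ℤ, Div.sq W x y n = DP.sQ Q n := fun n => div_sq_eq_sQ W h n
  -- translation of the minimality hypothesis to integer multiples
  have hminZ : ∀ j : ℤ, 0 < j → j < N → j • Q ≠ 0 := by
    intro j hj0 hjN
    obtain ⟨k, rfl⟩ := Int.eq_ofNat_of_zero_le hj0.le
    rw [natCast_zsmul]
    exact hmin k (by exact_mod_cast hj0) (by exact_mod_cast hjN)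
  refine ⟨?_, ?_⟩
  · -- vanishing exactly at the order
    rw [hs]
    constructor
    · intro h0
      by_contra hne
      have hmul : ∀ j : ℤ, 0 < j → j ≤ (N : ℕ) → j • Q ≠ 0 := by
        intro j hj0 hjN
        rcases lt_or_eq_of_le hjN with hlt | heq
        · exact hminZ j hj0 hlt
        · rw [heq, natCast_zsmul]; exact hne
      rcases Nat.eq_zero_or_pos N with hN0 | hN0
      · exact hne (by rw [hN0, zero_smul])
      · exact DP.sQ_ne_zero hQ N hmul (N : ℤ) (by exact_mod_cast hN0) le_rfl h0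
    · intro hNQ
      rcases Nat.lt_or_ge N 2 with hN | hN
      · interval_cases N
        · exact DP.sQ_zero Q
        · rw [one_smul] at hNQ; exact absurd hNQ hQ
      · exact DP.sQ_eq_zero_of_order hQ N hN hminZ (by rw [natCast_zsmul]; exact hNQ)
  · -- the E-relations below the order
    intro m n hn hnm hmn
    have hN1 : 1 ≤ N := by omega
    obtain ⟨L, rfl⟩ : ∃ L : ℕ, N = L + 1 := ⟨N - 1, by omega⟩
    have hmul : ∀ j : ℤ, 0 < j → j ≤ (L : ℕ) → j • Q ≠ 0 := by
      intro j hj0 hjL
      exact hminZ j hj0 (by push_cast; omega)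
    have hw := (DP.ward hQ L hmul).2 (m : ℤ) (n : ℤ) (by exact_mod_cast hn) (by exact_mod_cast hnm)
      (by exact_mod_cast hmn)
    have hxm := DP.xc_sub_Xm_mul hQ L hmul (m : ℤ) (by omega) (by omega)
    have hxn := DP.xc_sub_Xm_mul hQ L hmul (n : ℤ) (by exact_mod_cast hn) (by omega)
    unfold Div.ERel
    simp only [hs]
    linear_combination hw + DP.sQ Q n ^ 2 * hxm - DP.sQ Q m ^ 2 * hxn

section key

variable {K : Type u} [Field K] [DecidableEq K] [CharZero K]

/-- **KEY**, unconditional: for an odd prime `p`, in characteristic zero and with `Δ ≠ 0`,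
`p • (x, y) = 0 ↔ preΨ_p(x) = 0`. -/
theorem key (W : WeierstrassCurve K) (hΔ : W.Δ ≠ 0) {p : ℕ} (hp : p.Prime) (hp2 : p ≠ 2) :
    DPmain.Key W p :=
  fun x y h => Div.key W dp2Statement.{u} hΔ hp hp2 x y h

end key

end Fermat.Agent.S13.DP.KeyBridge
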