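import Mathlib

/-!
# S13 / DP4: periodicity of the zero set of an elliptic (Ward) sequence

Pure algebra over a field.  Let `s : ℤ → K` satisfy `s 0 = 0`, `s 1 = 1`, and the Ward relations
`s (m+n) s (m-n) = s (m+1) s (m-1) s n ^ 2 - s (n+1) s (n-1) s m ^ 2`.  If `N ≥ 2` is the first
positive zero and `s (N+1) ≠ 0`, then `s n = 0 ↔ N ∣ n`.
-/

set_option autoImplicit false

namespace Fermat.Agent.S13.DP.Periodicity

variable {K : Type*} [Field K]

/-- The Ward (elliptic sequence) relation at the pair of indices `(m, n)`. -/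
def WardRel (s : ℤ → K) (m n : ℤ) : Prop :=
  s (m + n) * s (m - n) = s (m + 1) * s (m - 1) * s n ^ 2 - s (n + 1) * s (n - 1) * s m ^ 2

theorem wardRel_iff (s : ℤ → K) (m n : ℤ) :
    WardRel s m n ↔
      s (m + n) * s (m - n)
        = s (m + 1) * s (m - 1) * s n ^ 2 - s (n + 1) * s (n - 1) * s m ^ 2 :=
  Iff.rfl

section Core

variable (s : ℤ → K) (N : ℤ)

/-- Ward relations only in the range `0 < n < m`. -/
def WardPos : Prop := ∀ m n : ℤ, 0 < n → n < m → WardRel s m n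

variable {s} {N}

/-- All multiples of `N` are zeros of `s`. -/
theorem mul_eq_zero_of_nat (h0 : s 0 = 0) (hW : WardPos s) (hN : 2 ≤ N)
    (hN0 : s N = 0) (hNp : s (N + 1) ≠ 0) (hNm : s (N - 1) ≠ 0) :
    ∀ q : ℕ, s ((q : ℤ) * N) = 0 := by
  intro q
  induction q with
  | zero => simpa using h0
  | succ q ih =>
    rcases Nat.eq_zero_or_pos q with rfl | hq
    · simpa using hN0
    · have hq' : (1 : ℤ) ≤ (q : ℤ) := by exact_mod_cast hq
      have hw := hW (((q + 1 : ℕ) : ℤ) * N) N (by linarith) (by push_cast; nlinarith)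
      unfold WardRel at hw
      have e1 : ((q + 1 : ℕ) : ℤ) * N - N = (q : ℤ) * N := by push_cast; ring
      rw [e1, ih, hN0] at hw
      have h3 : s (N + 1) * s (N - 1) * s (((q + 1 : ℕ) : ℤ) * N) ^ 2 = 0 := by
        linear_combination hw
      have h4 : s (((q + 1 : ℕ) : ℤ) * N) ^ 2 = 0 := by
        rcases mul_eq_zero.mp h3 with h | h
        · rcases mul_eq_zero.mp h with h | h
          · exact absurd h hNp
          · exact absurd h hNm
        · exact h
      exact pow_eq_zero_iff (two_ne_zero) |>.mp h4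

/-- Non-multiples of `N` are not zeros of `s`. -/
theorem ne_zero_of_nat (h0 : s 0 = 0) (hW : WardPos s) (hN : 2 ≤ N)
    (hne : ∀ j : ℤ, 0 < j → j < N → s j ≠ 0)
    (hN0 : s N = 0) (hNp : s (N + 1) ≠ 0) :
    ∀ q : ℕ, ∀ k : ℤ, 0 < k → k < N → s ((q : ℤ) * N + k) ≠ 0 := by
  have hNm : s (N - 1) ≠ 0 := hne (N - 1) (by linarith) (by linarith)
  have hmul := mul_eq_zero_of_nat h0 hW hN hN0 hNp hNm
  intro q
  induction q with
  | zero =>
    intro k hk hkN
    simpa using hne k hk hkN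
  | succ q ih =>
    intro k hk hkN
    set M : ℤ := ((q + 1 : ℕ) : ℤ) * N with hM
    have hMN : N ≤ M := by
      rw [hM]; push_cast
      have : (0 : ℤ) ≤ (q : ℤ) := Int.natCast_nonneg q
      nlinarith
    have hM0 : s M = 0 := hmul (q + 1)
    -- `s (M - 1) ≠ 0`
    have hMm : s (M - 1) ≠ 0 := by
      have e : M - 1 = (q : ℤ) * N + (N - 1) := by rw [hM]; push_cast; ring
      rw [e]
      exact ih (N - 1) (by linarith) (by linarith)
    -- `s (M + 1) ≠ 0`
    have hMp : s (M + 1) ≠ 0 := by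
      rcases Nat.eq_zero_or_pos q with rfl | hq
      · have e : M + 1 = N + 1 := by rw [hM]; push_cast; ring
        rw [e]; exact hNp
      · have hq' : (1 : ℤ) ≤ (q : ℤ) := by exact_mod_cast hq
        have hw := hW ((q : ℤ) * N + 1) N (by linarith) (by nlinarith)
        unfold WardRel at hw
        have e1 : (q : ℤ) * N + 1 + N = M + 1 := by rw [hM]; push_cast; ring
        have e2 : (q : ℤ) * N + 1 - 1 = (q : ℤ) * N := by ring
        rw [e1, e2, hmul q, hN0] at hw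
        have h1 : s ((q : ℤ) * N + 1) ≠ 0 := ih 1 one_pos (by linarith)
        intro hc
        rw [hc] at hw
        have h3 : s (N + 1) * s (N - 1) * s ((q : ℤ) * N + 1) ^ 2 = 0 := by
          linear_combination hw
        exact (mul_ne_zero (mul_ne_zero hNp hNm) (pow_ne_zero 2 h1)) h3
    -- the Ward relation at `(M, k)`
    have hw := hW M k hk (by linarith)
    unfold WardRel at hw
    rw [hM0] at hw
    intro hc
    rw [hc] at hw
    have h3 : s (M + 1) * s (M - 1) * s k ^ 2 = 0 := by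
      linear_combination -hw
    exact (mul_ne_zero (mul_ne_zero hMp hMm) (pow_ne_zero 2 (hne k hk hkN))) h3

end Core

/-- **Periodicity of the zero set (weak hypotheses).**  Only the Ward relations with
`0 < n < m` are used. -/
theorem eq_zero_iff_dvd_of_wardPos (s : ℤ → K) (h0 : s 0 = 0)
    (hodd : ∀ n : ℤ, s (-n) = -s n) (hW : WardPos s)
    (N : ℕ) (hN : 2 ≤ N) (hne : ∀ j : ℕ, 0 < j → j < N → s j ≠ 0)
    (hN0 : s N = 0) (hN1 : s ((N : ℤ) + 1) ≠ 0) :
    ∀ n : ℤ, s n = 0 ↔ (N : ℤ) ∣ n := by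
  have hN' : (2 : ℤ) ≤ (N : ℤ) := by exact_mod_cast hN
  have hne' : ∀ j : ℤ, 0 < j → j < (N : ℤ) → s j ≠ 0 := by
    intro j hj hjN
    lift j to ℕ using hj.le
    exact hne j (by exact_mod_cast hj) (by exact_mod_cast hjN)
  have hNm : s ((N : ℤ) - 1) ≠ 0 := hne' _ (by linarith) (by linarith)
  have hmul := mul_eq_zero_of_nat h0 hW hN' hN0 hN1 hNm
  have hnon := ne_zero_of_nat h0 hW hN' hne' hN0 hN1
  -- the statement for natural numbers
  have key : ∀ n : ℕ, s (n : ℤ) = 0 ↔ (N : ℤ) ∣ (n : ℤ) := by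
    intro n
    have hdm : (n : ℤ) = ((n / N : ℕ) : ℤ) * (N : ℤ) + ((n % N : ℕ) : ℤ) := by
      have h2 : n = (n / N) * N + n % N := by
        rw [Nat.mul_comm]; exact (Nat.div_add_mod n N).symm
      exact_mod_cast h2
    rcases Nat.eq_zero_or_pos (n % N) with hr | hr
    · have hdvd : (N : ℤ) ∣ (n : ℤ) := by
        exact_mod_cast Nat.dvd_of_mod_eq_zero hr
      refine ⟨fun _ => hdvd, fun _ => ?_⟩
      rw [hdm, hr]
      simpa using hmul (n / N)
    · have hlt : n % N < N := Nat.mod_lt n (by omega)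
      have hns : s (n : ℤ) ≠ 0 := by
        rw [hdm]
        exact hnon (n / N) ((n % N : ℕ) : ℤ) (by exact_mod_cast hr) (by exact_mod_cast hlt)
      have hnd : ¬ (N : ℤ) ∣ (n : ℤ) := by
        intro h
        have h' : N ∣ n := by exact_mod_cast h
        have := Nat.mod_eq_zero_of_dvd h'
        omega
      exact ⟨fun h => absurd h hns, fun h => absurd h hnd⟩
  intro n
  rcases Int.le_total 0 n with hn | hn
  · lift n to ℕ using hn
    exact key n
  · have hn' : 0 ≤ -n := by linarith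
    obtain ⟨m, hm⟩ := Int.eq_ofNat_of_zero_le hn'
    have e : n = -(m : ℤ) := by linarith
    rw [e, hodd, neg_eq_zero, dvd_neg]
    exact key m

/-- **DP4: periodicity of the zero set of an elliptic sequence.** -/
theorem eq_zero_iff_dvd (s : ℤ → K) (h0 : s 0 = 0) (_h1 : s 1 = 1)
    (hodd : ∀ n : ℤ, s (-n) = -s n)
    (hW : ∀ m n : ℤ, s (m + n) * s (m - n)
      = s (m + 1) * s (m - 1) * s n ^ 2 - s (n + 1) * s (n - 1) * s m ^ 2)
    (N : ℕ) (hN : 2 ≤ N) (hne : ∀ j : ℕ, 0 < j → j < N → s j ≠ 0)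
    (hN0 : s N = 0) (hN1 : s ((N : ℤ) + 1) ≠ 0) :
    ∀ n : ℤ, s n = 0 ↔ (N : ℤ) ∣ n :=
  eq_zero_iff_dvd_of_wardPos s h0 hodd (fun m n _ _ => hW m n) N hN hne hN0 hN1

/-- For `N ≥ 4` the nondegeneracy `s (N+1) ≠ 0` is automatic (Ward relation at `(N-1, 2)`). -/
theorem succ_ne_zero_of_four_le (s : ℤ → K) (h1 : s 1 = 1) (hW : WardPos s)
    (N : ℕ) (hN : 4 ≤ N) (hne : ∀ j : ℕ, 0 < j → j < N → s j ≠ 0)
    (hN0 : s N = 0) : s ((N : ℤ) + 1) ≠ 0 := by
  have hN' : (4 : ℤ) ≤ (N : ℤ) := by exact_mod_cast hN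
  have hw := hW ((N : ℤ) - 1) 2 (by norm_num) (by linarith)
  unfold WardRel at hw
  have e1 : (N : ℤ) - 1 + 2 = (N : ℤ) + 1 := by ring
  have e2 : (N : ℤ) - 1 - 2 = (N : ℤ) - 3 := by ring
  have e3 : (N : ℤ) - 1 + 1 = (N : ℤ) := by ring
  have e4 : (N : ℤ) - 1 - 1 = (N : ℤ) - 2 := by ring
  have e5 : (2 : ℤ) + 1 = 3 := by norm_num
  have e6 : (2 : ℤ) - 1 = 1 := by norm_num
  rw [e1, e2, e3, e4, e5, e6, hN0, h1] at hw
  have h3 : s 3 ≠ 0 := by
    have := hne 3 (by norm_num) (by omega)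
    simpa using this
  have hNm : s ((N : ℤ) - 1) ≠ 0 := by
    have := hne (N - 1) (by omega) (by omega)
    have e : ((N - 1 : ℕ) : ℤ) = (N : ℤ) - 1 := by
      rw [Nat.cast_sub (by omega)]; simp
    rwa [e] at this
  intro hc
  rw [hc] at hw
  have : s 3 * s ((N : ℤ) - 1) ^ 2 = 0 := by linear_combination hw
  exact (mul_ne_zero h3 (pow_ne_zero 2 hNm)) this

/-- The same with the full Ward hypothesis. -/
theorem succ_ne_zero_of_four_le' (s : ℤ → K) (h1 : s 1 = 1)
    (hW : ∀ m n : ℤ, s (m + n) * s (m - n)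
      = s (m + 1) * s (m - 1) * s n ^ 2 - s (n + 1) * s (n - 1) * s m ^ 2)
    (N : ℕ) (hN : 4 ≤ N) (hne : ∀ j : ℕ, 0 < j → j < N → s j ≠ 0)
    (hN0 : s N = 0) : s ((N : ℤ) + 1) ≠ 0 :=
  succ_ne_zero_of_four_le s h1 (fun m n _ _ => hW m n) N hN hne hN0

/-- **DP4, packaged**: the nondegeneracy hypothesis is only needed for `N = 2` (as `s 3 ≠ 0`) and
for `N = 3` (as `s 4 ≠ 0`). -/
theorem eq_zero_iff_dvd_of_small (s : ℤ → K) (h0 : s 0 = 0) (h1 : s 1 = 1)
    (hodd : ∀ n : ℤ, s (-n) = -s n) (hW : WardPos s)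
    (N : ℕ) (hN : 2 ≤ N) (hne : ∀ j : ℕ, 0 < j → j < N → s j ≠ 0)
    (hN0 : s N = 0) (h2 : N = 2 → s 3 ≠ 0) (h3 : N = 3 → s 4 ≠ 0) :
    ∀ n : ℤ, s n = 0 ↔ (N : ℤ) ∣ n := by
  have hN1 : s ((N : ℤ) + 1) ≠ 0 := by
    rcases Nat.lt_or_ge N 4 with h | h
    · have hcases : N = 2 ∨ N = 3 := by omega
      rcases hcases with rfl | rfl
      · have := h2 rfl
        norm_num
        exact this
      · have := h3 rfl
        norm_num
        exact this
    · exact succ_ne_zero_of_four_le s h1 hW N h hne hN0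
  exact eq_zero_iff_dvd_of_wardPos s h0 hodd hW N hN hne hN0 hN1

/-- Mathlib's `IsEllipticSequence` predicate implies the Ward relations for a sequence with
`s 1 = 1`. -/
theorem wardRel_of_isEllipticSequence (s : ℤ → K) (h1 : s 1 = 1) (hE : IsEllipticSequence s)
    (m n : ℤ) : WardRel s m n := by
  have h := hE m n 1
  unfold IsEllipticNet.rel at h
  unfold WardRel
  simp only [add_zero, h1, mul_one] at h
  linear_combination h

/-- DP4 for a sequence satisfying Mathlib's `IsEllipticSequence`. -/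
theorem eq_zero_iff_dvd_of_isEllipticSequence (s : ℤ → K) (h0 : s 0 = 0) (h1 : s 1 = 1)
    (hodd : ∀ n : ℤ, s (-n) = -s n) (hE : IsEllipticSequence s)
    (N : ℕ) (hN : 2 ≤ N) (hne : ∀ j : ℕ, 0 < j → j < N → s j ≠ 0)
    (hN0 : s N = 0) (h2 : N = 2 → s 3 ≠ 0) (h3 : N = 3 → s 4 ≠ 0) :
    ∀ n : ℤ, s n = 0 ↔ (N : ℤ) ∣ n :=
  eq_zero_iff_dvd_of_small s h0 h1 hodd
    (fun m n _ _ => wardRel_of_isEllipticSequence s h1 hE m n) N hN hne hN0 h2 h3

/-- DP4 for Mathlib's normalised sequence `normEDS b c d`, assuming its Ward relations in the range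
`0 < n < m`.  Recall `normEDS b c d 2 = b`, `normEDS b c d 3 = c`, `normEDS b c d 4 = d * b`. -/
theorem normEDS_eq_zero_iff_dvd (b c d : K) (hW : WardPos (normEDS b c d))
    (N : ℕ) (hN : 2 ≤ N) (hne : ∀ j : ℕ, 0 < j → j < N → normEDS b c d j ≠ 0)
    (hN0 : normEDS b c d N = 0) (h2 : N = 2 → c ≠ 0) (h3 : N = 3 → d * b ≠ 0) :
    ∀ n : ℤ, normEDS b c d n = 0 ↔ (N : ℤ) ∣ n :=
  eq_zero_iff_dvd_of_small (normEDS b c d) (normEDS_zero b c d) (normEDS_one b c d)
    (normEDS_neg b c d) hW N hN hne hN0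
    (fun h => by rw [normEDS_three]; exact h2 h) (fun h => by rw [normEDS_four]; exact h3 h)

end Fermat.Agent.S13.DP.Periodicity
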