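import Fermat.Agent.S13.DP.Density
import Fermat.Agent.S13.DP.Ward
import Fermat.Agent.S13.DP.Periodicity
import Fermat.Agent.S13.DP.Identities
import Fermat.Agent.S13.DP.Main

/-!
# T13 / DP3 + KEY by density

The Ward relations for the division-polynomial values hold at *every* affine point of an elliptic
curve over an algebraically closed field of characteristic zero (they hold off a finite set of
`x`-coordinates by `DP.ward`, hence everywhere by the density lemma).  Together with the abstract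
periodicity of elliptic sequences this gives the KEY statement `DPmain.Key`.
-/

set_option autoImplicit false
set_option linter.unusedSectionVars false

open Polynomial
open scoped Polynomial.Bivariate

namespace Fermat.Agent.S13.DP.Density

open WeierstrassCurve WeierstrassCurve.Affine

variable {K : Type*} [Field K] [DecidableEq K]

/-- Value of Mathlib's bivariate `Ψ n` at `(x, y)`. -/
theorem evalEval_Ψ (W : Affine K) (x y : K) (n : ℤ) :
    (W.Ψ n).evalEval x y = sq W x (y - W.negY x y) n := by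
  unfold WeierstrassCurve.Ψ sq
  rw [evalEval_mul, evalEval_C]
  split_ifs with h
  · congr 1
    rw [WeierstrassCurve.ψ₂, Affine.evalEval_polynomialY, Affine.negY]
    ring
  · simp

/-- The Ward relation `(m, n)` as a bivariate polynomial. -/
noncomputable def wardPoly (W : Affine K) (m n : ℤ) : K[X][Y] :=
  W.Ψ (m + n) * W.Ψ (m - n)
    - (W.Ψ (m + 1) * W.Ψ (m - 1) * W.Ψ n ^ 2 - W.Ψ (n + 1) * W.Ψ (n - 1) * W.Ψ m ^ 2)

theorem evalEval_wardPoly (W : Affine K) (x y : K) (m n : ℤ) :
    (wardPoly W m n).evalEval x y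
      = sq W x (y - W.negY x y) (m + n) * sq W x (y - W.negY x y) (m - n)
        - (sq W x (y - W.negY x y) (m + 1) * sq W x (y - W.negY x y) (m - 1)
              * sq W x (y - W.negY x y) n ^ 2
            - sq W x (y - W.negY x y) (n + 1) * sq W x (y - W.negY x y) (n - 1)
              * sq W x (y - W.negY x y) m ^ 2) := by
  unfold wardPoly
  simp only [evalEval_sub, evalEval_mul, evalEval_pow, evalEval_Ψ]

/-- The finite set of "bad" `x`-coordinates: those of points of order at most `L`. -/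
noncomputable def badSet (W : Affine K) (L : ℕ) : Finset K :=
  W.Ψ₂Sq.roots.toFinset ∪ (Finset.Icc 2 L).biUnion (fun N => (W.preΨ (N : ℤ)).roots.toFinset)

theorem sQ_some (W : Affine K) {x y : K} (h : W.Nonsingular x y) (j : ℤ) :
    sQ (Point.some x y h) j = sq W x (y - W.negY x y) j := rfl

section

variable [CharZero K]

theorem mem_badSet_of_Ψ₂Sq (W : Affine K) (L : ℕ) {x : K} (hx : W.Ψ₂Sq.eval x = 0) :
    x ∈ badSet W L := by
  rw [badSet, Finset.mem_union]
  left
  rw [Multiset.mem_toFinset, mem_roots (W.Ψ₂Sq_ne_zero (by norm_num))]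
  exact hx

theorem mem_badSet_of_preΨ (W : Affine K) (L : ℕ) {x : K} {N : ℕ} (hN2 : 2 ≤ N) (hNL : N ≤ L)
    (hx : (W.preΨ (N : ℤ)).eval x = 0) : x ∈ badSet W L := by
  rw [badSet, Finset.mem_union]
  right
  rw [Finset.mem_biUnion]
  refine ⟨N, Finset.mem_Icc.mpr ⟨hN2, hNL⟩, ?_⟩
  have hne : W.preΨ (N : ℤ) ≠ 0 := by
    apply W.preΨ_ne_zero
    have : (N : K) ≠ 0 := Nat.cast_ne_zero.mpr (by omega)
    exact_mod_cast this
  rw [Multiset.mem_toFinset, mem_roots hne]
  exact hx

/-- Off the bad set, the first `L` multiples of a point are nonzero. -/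
theorem zsmul_ne_zero_of_notMem_badSet (W : Affine K) (L : ℕ) {x y : K} (h : W.Nonsingular x y)
    (hx : x ∉ badSet W L) (j : ℤ) (hj0 : 0 < j) (hjL : j ≤ L) :
    j • (Point.some x y h) ≠ 0 := by
  classical
  intro hj
  set Q : W.Point := Point.some x y h with hQdef
  have hQ : Q ≠ 0 := Point.some_ne_zero h
  have hex : ∃ N : ℕ, 0 < N ∧ ((N : ℤ) • Q = 0) := by
    refine ⟨j.toNat, by omega, ?_⟩
    rw [Int.toNat_of_nonneg hj0.le]; exact hj
  obtain ⟨N, ⟨hN0, hNQ⟩, hmin, hmin'⟩ : ∃ N : ℕ, (0 < N ∧ ((N : ℤ) • Q = 0)) ∧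
      (∀ i : ℕ, i < N → ¬ (0 < i ∧ ((i : ℤ) • Q = 0))) ∧
      (∀ i : ℕ, (0 < i ∧ ((i : ℤ) • Q = 0)) → N ≤ i) :=
    ⟨Nat.find hex, Nat.find_spec hex, fun i hi => Nat.find_min hex hi,
      fun i hi => Nat.find_min' hex hi⟩
  have hNj : N ≤ j.toNat := hmin' _ ⟨by omega, by
    rw [Int.toNat_of_nonneg hj0.le]; exact hj⟩
  have hNL : N ≤ L := by omega
  have hN2 : 2 ≤ N := by
    by_contra hlt
    have h1 : N = 1 := by omega
    rw [h1] at hNQ
    simp at hNQ
  have hmul : ∀ i : ℤ, 0 < i → i < N → i • Q ≠ 0 := by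
    intro i hi0 hiN hi
    have : ¬ (0 < i.toNat ∧ ((i.toNat : ℤ) • Q = 0)) := hmin _ (by omega)
    apply this
    refine ⟨by omega, ?_⟩
    rw [Int.toNat_of_nonneg hi0.le]; exact hi
  have hs := sQ_eq_zero_of_order hQ N hN2 hmul hNQ
  rw [hQdef, sQ_some, sq] at hs
  rcases mul_eq_zero.mp hs with h0 | h0
  · exact hx (mem_badSet_of_preΨ W L hN2 hNL h0)
  · split_ifs at h0 with hev
    · apply hx
      apply mem_badSet_of_Ψ₂Sq
      rw [← sub_negY_sq W h.1, h0]
      ring
    · exact one_ne_zero h0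

/-- **DP3**: the Ward relations hold at every affine point. -/
theorem wardPos [IsAlgClosed K] (W : Affine K) (hΔ : W.Δ ≠ 0) {Q : W.Point} (hQ : Q ≠ 0) :
    Periodicity.WardPos (sQ Q) := by
  intro m n hn hnm
  cases Q with
  | zero => exact absurd rfl hQ
  | some x y h =>
    set L : ℕ := (m + n).toNat with hL
    have hLmn : (L : ℤ) = m + n := by rw [hL, Int.toNat_of_nonneg (by omega)]
    have key := evalEval_eq_zero_of_cofinite (by norm_num) W (wardPoly W m n) (badSet W L) ?_
      x y h.1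
    · rw [evalEval_wardPoly, sub_eq_zero] at key
      unfold Periodicity.WardRel
      simp only [sQ_some]
      exact key
    · intro x' y' hxy' hx'
      have h' : W.Nonsingular x' y' := (W.equation_iff_nonsingular_of_Δ_ne_zero hΔ).mp hxy'
      have hQ' : Point.some x' y' h' ≠ 0 := Point.some_ne_zero h'
      have hmul := zsmul_ne_zero_of_notMem_badSet W L h' hx'
      have hw := (ward hQ' L hmul).2 m n hn hnm (by omega)
      have hm := xc_sub_Xm_mul hQ' L hmul m (by omega) (by omega)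
      have hn' := xc_sub_Xm_mul hQ' L hmul n hn (by omega)
      rw [evalEval_wardPoly, sub_eq_zero]
      simp only [sQ_some] at hw hm hn'
      rw [hw]
      linear_combination
        (sq W x' (y' - W.negY x' y') n ^ 2) * hm - (sq W x' (y' - W.negY x' y') m ^ 2) * hn'

/-- minimal positive annihilator of a nonzero element killed by some positive integer. -/
theorem exists_min_order {A : Type*} [AddGroup A] {Q : A} (hQ : Q ≠ 0) {j : ℤ} (hj0 : 0 < j)
    (hj : j • Q = 0) :
    ∃ N : ℕ, 2 ≤ N ∧ (N : ℤ) ≤ j ∧ (N : ℤ) • Q = 0 ∧ ∀ i : ℤ, 0 < i → i < N → i • Q ≠ 0 := by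
  classical
  have hex : ∃ N : ℕ, 0 < N ∧ ((N : ℤ) • Q = 0) := by
    refine ⟨j.toNat, by omega, ?_⟩
    rw [Int.toNat_of_nonneg hj0.le]; exact hj
  obtain ⟨N, ⟨hN0, hNQ⟩, hmin, hmin'⟩ : ∃ N : ℕ, (0 < N ∧ ((N : ℤ) • Q = 0)) ∧
      (∀ i : ℕ, i < N → ¬ (0 < i ∧ ((i : ℤ) • Q = 0))) ∧
      (∀ i : ℕ, (0 < i ∧ ((i : ℤ) • Q = 0)) → N ≤ i) :=
    ⟨Nat.find hex, Nat.find_spec hex, fun i hi => Nat.find_min hex hi,
      fun i hi => Nat.find_min' hex hi⟩
  have hNj : N ≤ j.toNat := hmin' _ ⟨by omega, by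
    rw [Int.toNat_of_nonneg hj0.le]; exact hj⟩
  refine ⟨N, ?_, by omega, hNQ, ?_⟩
  · by_contra hlt
    have h1 : N = 1 := by omega
    rw [h1] at hNQ
    simp only [Nat.cast_one, one_smul] at hNQ
    exact hQ hNQ
  · intro i hi0 hiN hi
    have : ¬ (0 < i.toNat ∧ ((i.toNat : ℤ) • Q = 0)) := hmin _ (by omega)
    apply this
    refine ⟨by omega, ?_⟩
    rw [Int.toNat_of_nonneg hi0.le]; exact hi

/-- **KEY**: over an algebraically closed field of characteristic zero, a nonsingular affine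
point of an elliptic curve is killed by the odd prime `p` iff its `x`-coordinate is a root of
`preΨ_p`. -/
theorem key [IsAlgClosed K] (W : WeierstrassCurve K) (hΔ : W.Δ ≠ 0) {p : ℕ} (hp : p.Prime)
    (hp2 : p ≠ 2) : Fermat.Agent.S13.DPmain.Key W p := by
  intro x y h
  set Q : W.toAffine.Point := Point.some x y h with hQdef
  have hQ : Q ≠ 0 := Point.some_ne_zero h
  have hodd : ¬ Even (p : ℤ) := by
    have := hp.odd_of_ne_two hp2
    rw [Int.even_coe_nat]
    exact Nat.not_even_iff_odd.mpr this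
  have hsQp : sQ Q p = (W.preΨ (p : ℤ)).eval x := by
    rw [hQdef, sQ_some, sq_of_not_even _ _ _ hodd]
  have hp0 : (0 : ℤ) < p := by exact_mod_cast hp.pos
  rw [← hsQp]
  constructor
  · intro hpQ
    have hpQ' : (p : ℤ) • Q = 0 := by rw [natCast_zsmul]; exact hpQ
    refine sQ_eq_zero_of_order hQ p hp.two_le ?_ hpQ'
    intro j hj0 hjp hj
    have hdvd : addOrderOf Q ∣ p := addOrderOf_dvd_of_nsmul_eq_zero hpQ
    rcases (Nat.dvd_prime hp).mp hdvd with h1 | h1
    · exact hQ (AddMonoid.addOrderOf_eq_one_iff.mp h1)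
    · have : ((addOrderOf Q : ℕ) : ℤ) ∣ j := addOrderOf_dvd_iff_zsmul_eq_zero.mpr hj
      rw [h1] at this
      have := Int.le_of_dvd hj0 this
      omega
  · intro hs
    by_contra hpQ
    by_cases hall : ∀ j : ℤ, 0 < j → j ≤ p → j • Q ≠ 0
    · exact sQ_ne_zero hQ p hall p hp0 le_rfl hs
    · push Not at hall
      obtain ⟨j, hj0, hjp, hj⟩ := hall
      obtain ⟨N, hN2, hNj, hNQ, hmin⟩ := exists_min_order hQ hj0 hj
      have hNp : N ≠ p := by
        intro hNp
        rw [hNp, natCast_zsmul] at hNQ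
        exact hpQ hNQ
      have hN0 : sQ Q N = 0 := sQ_eq_zero_of_order hQ N hN2 hmin hNQ
      have hne : ∀ i : ℕ, 0 < i → i < N → sQ Q i ≠ 0 := by
        intro i hi0 hiN
        refine sQ_ne_zero hQ (N - 1) (fun k hk0 hkN => hmin k hk0 ?_) i (by exact_mod_cast hi0) ?_
        · have : ((N - 1 : ℕ) : ℤ) = (N : ℤ) - 1 := by
            rw [Nat.cast_sub (by omega)]; simp
          omega
        · have : ((N - 1 : ℕ) : ℤ) = (N : ℤ) - 1 := by
            rw [Nat.cast_sub (by omega)]; simp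
          omega
      have h2 : N = 2 → sQ Q 3 ≠ 0 := by
        intro hN
        rw [sQ_three]
        refine Identities.psi3_ne_zero_of_two_torsion (by norm_num) hQ ?_
        rw [hN] at hNQ
        rw [← two_smul ℤ Q]
        exact_mod_cast hNQ
      have h3 : N = 3 → sQ Q 4 ≠ 0 := by
        intro hN
        rw [sQ_four]
        have hQQ : Q + Q ≠ 0 := by
          have := hmin 2 (by norm_num) (by rw [hN]; norm_num)
          rwa [two_smul] at this
        refine mul_ne_zero (Identities.preΨ₄_ne_zero_of_three_torsion hQ hQQ ?_) ?_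
        · rw [hN] at hNQ
          rw [← natCast_zsmul]
          exact_mod_cast hNQ
        · intro h0
          exact hQQ ((eta_eq_zero_iff Q hQ).mp h0)
      have hper := Periodicity.eq_zero_iff_dvd_of_small (sQ Q) (sQ_zero Q) (sQ_one Q)
        (fun n => sq_neg W (xc Q) (eta Q) n) (wardPos W hΔ hQ) N hN2 hne hN0 h2 h3 (p : ℤ)
      have hdvd : (N : ℤ) ∣ (p : ℤ) := hper.mp hs
      have hdvd' : N ∣ p := Int.natCast_dvd_natCast.mp hdvd
      rcases (Nat.dvd_prime hp).mp hdvd' with h1 | h1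
      · omega
      · exact hNp h1

end

end Fermat.Agent.S13.DP.Density
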