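import Fermat.Agent.S13.DP.Basic
import Mathlib.AlgebraicGeometry.EllipticCurve.DivisionPolynomial.Basic

/-!
# S13 / DP: the values of the division polynomials at a point, as a sequence `ℤ → K`
-/

set_option autoImplicit false

namespace Fermat.Agent.S13.DP

open WeierstrassCurve Polynomial

variable {K : Type*} [Field K] (W : WeierstrassCurve K)

/-- Value of the `j`-th division polynomial `ψ_j` at a point with `x`-coordinate `x` and
`2y + a₁x + a₃ = η`. -/
noncomputable def sq (x η : K) (j : ℤ) : K :=
  (W.preΨ j).eval x * (if Even j then η else 1)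

variable (x η : K)

@[simp] theorem sq_zero : sq W x η 0 = 0 := by simp [sq]

@[simp] theorem sq_one : sq W x η 1 = 1 := by simp [sq]

@[simp] theorem sq_two : sq W x η 2 = η := by simp [sq]

theorem sq_three : sq W x η 3 = (W.Ψ₃).eval x := by
  have : ¬ Even (3 : ℤ) := by decide
  simp [sq, this]

theorem sq_four : sq W x η 4 = (W.preΨ₄).eval x * η := by
  have : Even (4 : ℤ) := by decide
  simp [sq, this]

theorem sq_neg (j : ℤ) : sq W x η (-j) = - sq W x η j := by
  by_cases h : Even j <;> simp [sq, even_neg, h]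

theorem sq_of_even {j : ℤ} (h : Even j) : sq W x η j = (W.preΨ j).eval x * η := by
  simp [sq, h]

theorem sq_of_not_even {j : ℤ} (h : ¬ Even j) : sq W x η j = (W.preΨ j).eval x := by
  simp [sq, h]

variable {x η}

theorem sq_odd (hη : η ^ 2 = (W.Ψ₂Sq).eval x) (m : ℤ) :
    sq W x η (2 * m + 1) =
      sq W x η (m + 2) * sq W x η m ^ 3 - sq W x η (m - 1) * sq W x η (m + 1) ^ 3 := by
  have h1 : ¬ Even (2 * m + 1) := by simp [Int.even_add_one]
  have hη4 : η ^ 4 = (W.Ψ₂Sq).eval x ^ 2 := by rw [← hη]; ring
  by_cases hm : Even m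
  · have h2 : Even (m + 2) := by simp [Int.even_add, hm]
    have h3 : ¬ Even (m - 1) := by simp [Int.even_sub, hm]
    have h4 : ¬ Even (m + 1) := by simp [Int.even_add, hm]
    rw [sq_of_not_even W x η h1, sq_of_even W x η h2, sq_of_even W x η hm,
      sq_of_not_even W x η h3, sq_of_not_even W x η h4, preΨ_odd, if_pos hm, if_pos hm]
    simp only [eval_sub, eval_mul, eval_pow, eval_one, mul_one]
    rw [← hη4]; ring
  · have h2 : ¬ Even (m + 2) := by simp [Int.even_add, hm]
    have h3 : Even (m - 1) := by
      rw [Int.even_iff] at hm ⊢; omega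
    have h4 : Even (m + 1) := by
      rw [Int.even_iff] at hm ⊢; omega
    rw [sq_of_not_even W x η h1, sq_of_not_even W x η h2, sq_of_not_even W x η hm,
      sq_of_even W x η h3, sq_of_even W x η h4, preΨ_odd, if_neg hm, if_neg hm]
    simp only [eval_sub, eval_mul, eval_pow, eval_one, mul_one]
    rw [← hη4]; ring

theorem sq_even (hη : η ^ 2 = (W.Ψ₂Sq).eval x) (m : ℤ) :
    sq W x η (2 * m) * η =
      sq W x η (m - 1) ^ 2 * sq W x η m * sq W x η (m + 2)
        - sq W x η (m - 2) * sq W x η m * sq W x η (m + 1) ^ 2 := by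
  have h1 : Even (2 * m) := even_two_mul m
  by_cases hm : Even m
  · have h2 : Even (m + 2) := by simp [Int.even_add, hm]
    have h2' : Even (m - 2) := by simp [Int.even_sub, hm]
    have h3 : ¬ Even (m - 1) := by simp [Int.even_sub, hm]
    have h4 : ¬ Even (m + 1) := by simp [Int.even_add, hm]
    rw [sq_of_even W x η h1, sq_of_even W x η h2, sq_of_even W x η hm, sq_of_even W x η h2',
      sq_of_not_even W x η h3, sq_of_not_even W x η h4, preΨ_even]
    simp only [eval_sub, eval_mul, eval_pow]
    ring
  · have h2 : ¬ Even (m + 2) := by simp [Int.even_add, hm]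
    have h2' : ¬ Even (m - 2) := by simp [Int.even_sub, hm]
    have h3 : Even (m - 1) := by
      rw [Int.even_iff] at hm ⊢; omega
    have h4 : Even (m + 1) := by
      rw [Int.even_iff] at hm ⊢; omega
    rw [sq_of_even W x η h1, sq_of_not_even W x η h2, sq_of_not_even W x η hm,
      sq_of_not_even W x η h2', sq_of_even W x η h3, sq_of_even W x η h4, preΨ_even]
    simp only [eval_sub, eval_mul, eval_pow]
    ring

end Fermat.Agent.S13.DP
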